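import Fermat.Agent.Corollaries.Ram.Main

/-!
# The fifteen theorem for diagonal forms in any number of variables
-/

namespace Fermat.Agent.Cor.Ram

/-- `x² + 2y² + 5z² + 5w²` represents every natural number but `15`. -/
theorem val1255 {n : ℕ} (hn : n ≠ 15) : Val 1 2 5 5 n := by
  induction n using Nat.strong_induction_on with
  | _ n ih =>
  have step : ∀ (k : ℕ) (w : ℤ), (k : ℤ) + (5 : ℕ) * w ^ 2 = n → k % 25 ≠ 0 → k % 25 ≠ 10 →
      k % 25 ≠ 15 → Val 1 2 5 5 n := by
    intro k w hk h8 h16 h17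
    exact Val.step w (by simpa using good125 h8 h16 h17) hk
  by_cases h0 : n % 25 = 0
  · obtain ⟨k, rfl⟩ := Nat.dvd_of_mod_eq_zero h0
    rcases Nat.eq_zero_or_pos k with rfl | hk
    · exact ⟨0, 0, 0, 0, by simp⟩
    by_cases h15 : k = 15
    · subst h15
      exact step 370 1 (by norm_num) (by norm_num) (by norm_num) (by norm_num)
    · obtain ⟨x, y, z, w, h⟩ := ih k (by omega) h15
      exact ⟨5 * x, 5 * y, 5 * z, 5 * w, by push_cast at h ⊢; linarith⟩
  by_cases h10 : n % 25 = 10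
  · obtain ⟨b, rfl⟩ : ∃ b, n = 25 * b + 10 := ⟨n / 25, by omega⟩
    exact step (25 * b + 5) 1 (by push_cast; ring) (by omega) (by omega) (by omega)
  by_cases h15 : n % 25 = 15
  · obtain ⟨b, rfl⟩ : ∃ b, n = 25 * b + 40 := ⟨n / 25 - 1, by omega⟩
    exact step (25 * b + 20) 2 (by push_cast; ring) (by omega) (by omega) (by omega)
  · exact step n 0 (by ring) h0 h10 h15

/-- **`x² + 2y² + 5z² + 5w²`** represents exactly the natural numbers `n ≠ 15`. -/
theorem form1255_iff {n : ℕ} :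
    (∃ x y z w : ℤ, x ^ 2 + 2 * y ^ 2 + 5 * z ^ 2 + 5 * w ^ 2 = (n : ℤ)) ↔ n ≠ 15 := by
  constructor
  · rintro ⟨x, y, z, w, h⟩ rfl
    have h1 : Val 1 2 5 5 15 := ⟨x, y, z, w, by rw [← h]; push_cast; ring⟩
    rw [val_iff (by norm_num) (by norm_num) (by norm_num) (by norm_num) (le_refl 15)] at h1
    revert h1
    decide +kernel
  · intro hn
    obtain ⟨x, y, z, w, h⟩ := val1255 hn
    exact ⟨x, y, z, w, by rw [← h]; push_cast; ring⟩

/-- The values of a diagonal form in the variables `i : ι`. -/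
def W {ι : Type*} [Fintype ι] (a : ι → ℕ) (n : ℕ) : Prop :=
  ∃ x : ι → ℤ, ∑ i, (a i : ℤ) * x i ^ 2 = n

section

variable {ι : Type*} [Fintype ι] {a : ι → ℕ}

/-- The coefficients `c` occur among the coefficients `a`, at different places. -/
def Has (a : ι → ℕ) {m : ℕ} (c : Fin m → ℕ) : Prop :=
  ∃ v : Fin m → ι, Function.Injective v ∧ ∀ j, a (v j) = c j

theorem W.of_has {m : ℕ} {c : Fin m → ℕ} (h : Has a c) {n : ℕ} (hn : W c n) : W a n := by
  obtain ⟨v, hv, hc⟩ := h
  obtain ⟨y, hy⟩ := hn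
  refine ⟨Function.extend v y 0, ?_⟩
  rw [← hy]
  symm
  refine Fintype.sum_of_injective v hv _ _ ?_ ?_
  · intro i hi
    have : Function.extend v y 0 i = 0 := by
      rw [Function.extend_apply' _ _ _ (fun ⟨j, hj⟩ => hi ⟨j, hj⟩)]
      rfl
    rw [this]
    ring
  · intro j
    rw [hv.extend_apply, hc]

/-- Escalation. -/
theorem Has.esc {m : ℕ} {c : Fin m → ℕ} (h : Has a c) {t : ℕ} (ht : W a t) (hn : ¬ W c t) :
    ∃ d, 1 ≤ d ∧ d ≤ t ∧ Has a (Matrix.vecCons d c) := by
  obtain ⟨v, hv, hc⟩ := h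
  obtain ⟨x, hx⟩ := ht
  by_cases hi : ∃ i, i ∉ Set.range v ∧ (a i : ℤ) * x i ^ 2 ≠ 0
  · obtain ⟨i, hi, hne⟩ := hi
    have h0 : ∀ j, 0 ≤ (a j : ℤ) * x j ^ 2 := fun j => by positivity
    have h1 : (a i : ℤ) * x i ^ 2 ≤ t := by
      rw [← hx]
      exact Finset.single_le_sum (fun j _ => h0 j) (Finset.mem_univ i)
    have h2 : a i ≠ 0 := by
      intro h; apply hne; rw [h]; simp
    have h3 : x i ≠ 0 := by
      intro h; apply hne; rw [h]; simp
    have h4 : 1 ≤ x i ^ 2 := by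
      have := sq_pos_of_ne_zero h3
      omega
    have h5 : (a i : ℤ) ≤ a i * x i ^ 2 := by
      have : (0 : ℤ) ≤ a i := Nat.cast_nonneg _
      nlinarith
    refine ⟨a i, Nat.one_le_iff_ne_zero.mpr h2, by exact_mod_cast h5.trans h1, Fin.cons i v,
      Fin.cons_injective_iff.mpr ⟨hi, hv⟩, ?_⟩
    intro j
    refine Fin.cases ?_ (fun j => ?_) j
    · rfl
    · exact hc j
  · push Not at hi
    refine absurd ⟨x ∘ v, ?_⟩ hn
    rw [← hx]
    refine Fintype.sum_of_injective v hv _ _ hi ?_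
    intro j
    rw [hc j]
    rfl

theorem W.fin {m : ℕ} {c : Fin m → ℕ} (hc : ∀ j, 1 ≤ c j) {t : ℕ} (ht : t ≤ 15) (h : W c t) :
    ∃ y : Fin m → Fin 4, ∑ j, c j * (y j : ℕ) ^ 2 = t := by
  obtain ⟨x, hx⟩ := h
  have h1 : ∑ j, c j * (x j).natAbs ^ 2 = t := by
    zify
    rw [← hx]
    exact Finset.sum_congr rfl fun j _ => by rw [sq_abs]
  have h2 : ∀ j, (x j).natAbs < 4 := by
    intro j
    refine lt4 ht ?_
    rw [← h1]
    refine (Nat.le_mul_of_pos_left _ (hc j)).trans ?_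
    exact Finset.single_le_sum (f := fun j => c j * (x j).natAbs ^ 2) (fun j _ => Nat.zero_le _)
      (Finset.mem_univ j)
  exact ⟨fun j => ⟨(x j).natAbs, h2 j⟩, h1⟩

/-- Four of the coefficients are one of the 54 quadruples in some order. -/
theorem W.of_ram {c : Fin 4 → ℕ} (h : Has a c)
    (hc : ∃ σ : Equiv.Perm (Fin 4), IsRam (c (σ 0)) (c (σ 1)) (c (σ 2)) (c (σ 3))) (n : ℕ) :
    W a n := by
  obtain ⟨v, hv, hvc⟩ := h
  obtain ⟨σ, hσ⟩ := hc
  obtain ⟨x, y, z, w, h⟩ := hσ.universal n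
  refine W.of_has (c := c ∘ σ) ⟨v ∘ σ, hv.comp σ.injective, fun j => hvc (σ j)⟩
    ⟨![x, y, z, w], ?_⟩
  rw [← h, Fin.sum_univ_four]
  rfl

/-- **The fifteen theorem for diagonal forms** in any number of variables: a form
`∑ a_i x_i²` with natural coefficients represents every natural number as soon as it represents
`1, 2, 3, 5, 6, 7, 10, 14, 15`. -/
theorem fifteen_diagonal (a : ι → ℕ)
    (h : ∀ n ∈ ({1, 2, 3, 5, 6, 7, 10, 14, 15} : Finset ℕ),
      ∃ x : ι → ℤ, ∑ i, (a i : ℤ) * x i ^ 2 = n) (n : ℕ) :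
    ∃ x : ι → ℤ, ∑ i, (a i : ℤ) * x i ^ 2 = n := by
  have hW : ∀ t ∈ ({1, 2, 3, 5, 6, 7, 10, 14, 15} : Finset ℕ), W a t := h
  change W a n
  have nW : ∀ {m : ℕ} {c : Fin m → ℕ} {t : ℕ}, t ≤ 15 → (∀ j, 1 ≤ c j) →
      (¬ ∃ y : Fin m → Fin 4, ∑ j, c j * (y j : ℕ) ^ 2 = t) → ¬ W c t :=
    fun ht hc hn hw => hn (W.fin hc ht hw)
  have s0 : Has a ![] := ⟨Fin.elim0, fun i => i.elim0, fun i => i.elim0⟩
  obtain ⟨d1, l1, u1, s1⟩ := s0.esc (hW 1 (by decide)) (nW (by norm_num) (by decide)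
    (by decide +kernel))
  obtain rfl : d1 = 1 := le_antisymm u1 l1
  obtain ⟨d2, l2, u2, s2⟩ := s1.esc (hW 2 (by decide)) (nW (by norm_num) (by decide)
    (by decide +kernel))
  have R : ∀ {c : Fin 3 → ℕ} (t : ℕ), t ∈ ({1, 2, 3, 5, 6, 7, 10, 14, 15} : Finset ℕ) → t ≤ 15 →
      Has a c → (∀ j, 1 ≤ c j) → (¬ ∃ y : Fin 3 → Fin 4, ∑ j, c j * (y j : ℕ) ^ 2 = t) →
      (∀ d, 1 ≤ d → d ≤ t → Has a (Matrix.vecCons d c) →
        ∃ σ : Equiv.Perm (Fin 4), IsRam ((Matrix.vecCons d c : Fin 4 → ℕ) (σ 0))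
          ((Matrix.vecCons d c : Fin 4 → ℕ) (σ 1)) ((Matrix.vecCons d c : Fin 4 → ℕ) (σ 2))
          ((Matrix.vecCons d c : Fin 4 → ℕ) (σ 3))) → W a n := by
    intro c t ht ht15 hc h1 h2 h3
    obtain ⟨d, l, u, s⟩ := hc.esc (hW t ht) (nW ht15 h1 h2)
    exact W.of_ram s (h3 d l u s) n
  interval_cases d2
  · obtain ⟨d3, l3, u3, s3⟩ := s2.esc (hW 3 (by decide)) (nW (by norm_num) (by decide)
      (by decide +kernel))
    interval_cases d3
    · exact R 7 (by decide) (by norm_num) s3 (by decide) (by decide +kernel) (by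
        intro d l u _; interval_cases d <;> decide +kernel)
    · exact R 14 (by decide) (by norm_num) s3 (by decide) (by decide +kernel) (by
        intro d l u _; interval_cases d <;> decide +kernel)
    · exact R 6 (by decide) (by norm_num) s3 (by decide) (by decide +kernel) (by
        intro d l u _; interval_cases d <;> decide +kernel)
  · obtain ⟨d3, l3, u3, s3⟩ := s2.esc (hW 5 (by decide)) (nW (by norm_num) (by decide)
      (by decide +kernel))
    interval_cases d3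
    · exact R 14 (by decide) (by norm_num) s3 (by decide) (by decide +kernel) (by
        intro d l u _; interval_cases d <;> decide +kernel)
    · exact R 7 (by decide) (by norm_num) s3 (by decide) (by decide +kernel) (by
        intro d l u _; interval_cases d <;> decide +kernel)
    · exact R 10 (by decide) (by norm_num) s3 (by decide) (by decide +kernel) (by
        intro d l u _; interval_cases d <;> decide +kernel)
    · exact R 14 (by decide) (by norm_num) s3 (by decide) (by decide +kernel) (by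
        intro d l u _; interval_cases d <;> decide +kernel)
    · obtain ⟨d4, l4, u4, s4⟩ := s3.esc (hW 10 (by decide)) (nW (by norm_num) (by decide)
        (by decide +kernel))
      by_cases h5 : d4 = 5
      · subst h5
        by_cases h15 : n = 15
        · subst h15
          exact hW 15 (by decide)
        · obtain ⟨x, y, z, w, hx⟩ := val1255 h15
          refine W.of_has s4 ⟨![w, z, y, x], ?_⟩
          rw [← hx, Fin.sum_univ_four]
          simp
          ring
      · refine W.of_ram s4 ?_ n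
        interval_cases d4
        all_goals first | exact absurd rfl h5 | decide +kernel

/-- The same as an equivalence. -/
theorem universal_diagonal_iff (a : ι → ℕ) :
    (∀ n : ℕ, ∃ x : ι → ℤ, ∑ i, (a i : ℤ) * x i ^ 2 = n) ↔
      ∀ n ∈ ({1, 2, 3, 5, 6, 7, 10, 14, 15} : Finset ℕ),
        ∃ x : ι → ℤ, ∑ i, (a i : ℤ) * x i ^ 2 = n :=
  ⟨fun h n _ => h n, fun h => fifteen_diagonal a h⟩

end

end Fermat.Agent.Cor.Ram
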