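import Mathlib

/-!
# The forms `x² + y² + 3 z²`, `x² + 2 y² + 3 z²`, `x² + 2 y² + 5 z²`: from `ℚ` to `ℤ`

The argument of Aubry, Davenport and Cassels for the Euclidean over-lattices.
-/

namespace Fermat.Agent.Cor.Ram

/-- An integral ternary quadratic form. -/
def tf (a b c d e f x y z : ℤ) : ℤ :=
  a * x ^ 2 + b * y ^ 2 + c * z ^ 2 + d * (y * z) + e * (x * z) + f * (x * y)

/-- Its polar form. -/
def tb (a b c d e f x y z x' y' z' : ℤ) : ℤ :=
  2 * a * (x * x') + 2 * b * (y * y') + 2 * c * (z * z') + d * (y * z' + y' * z) +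
    e * (x * z' + x' * z) + f * (x * y' + x' * y)

theorem tf_comb (a b c d e f x y z x' y' z' r s : ℤ) :
    tf a b c d e f (r * x + s * x') (r * y + s * y') (r * z + s * z') =
      r ^ 2 * tf a b c d e f x y z + s ^ 2 * tf a b c d e f x' y' z' +
        r * s * tb a b c d e f x y z x' y' z' := by
  simp only [tf, tb]; ring

/-- **The lemma of Aubry, Davenport and Cassels** for ternary forms. -/
theorem davenport_cassels {a b c d e f : ℤ}
    (hpos : ∀ x y z : ℤ, 0 ≤ tf a b c d e f x y z)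
    (hzero : ∀ x y z : ℤ, tf a b c d e f x y z = 0 → x = 0 ∧ y = 0 ∧ z = 0)
    (heuc : ∀ t : ℤ, 0 < t → ∀ x y z : ℤ, ∃ x' y' z' : ℤ,
      tf a b c d e f (x - t * x') (y - t * y') (z - t * z') < t ^ 2) (n : ℤ) (T : ℕ) :
    ∀ t : ℤ, 0 < t → t ≤ T → ∀ x y z : ℤ, tf a b c d e f x y z = t ^ 2 * n →
      ∃ x y z : ℤ, tf a b c d e f x y z = n := by
  induction T with
  | zero => intro t h1 h2; exact absurd h2 (by simpa using h1)
  | succ T ih =>
    intro t ht htT x y z h
    obtain ⟨x', y', z', hw⟩ := heuc t ht x y z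
    have e1 : tf a b c d e f (x - t * x') (y - t * y') (z - t * z') =
        tf a b c d e f x y z + t ^ 2 * tf a b c d e f x' y' z' -
          t * tb a b c d e f x y z x' y' z' := by
      have := tf_comb a b c d e f x y z x' y' z' 1 (-t)
      rw [show x - t * x' = 1 * x + -t * x' by ring, show y - t * y' = 1 * y + -t * y' by ring,
        show z - t * z' = 1 * z + -t * z' by ring, this]
      ring
    by_cases h0 : tf a b c d e f (x - t * x') (y - t * y') (z - t * z') = 0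
    · obtain ⟨h1, h2, h3⟩ := hzero _ _ _ h0
      refine ⟨x', y', z', ?_⟩
      have hx : x = t * x' + 0 * x' := by linarith
      have hy : y = t * y' + 0 * y' := by linarith
      have hz : z = t * z' + 0 * z' := by linarith
      rw [hx, hy, hz, tf_comb] at h
      have h4 : t ^ 2 * (tf a b c d e f x' y' z' - n) = 0 := by linear_combination h
      rcases mul_eq_zero.mp h4 with h5 | h5
      · exact absurd h5 (pow_ne_zero 2 ht.ne')
      · linarith
    · have hp := lt_of_le_of_ne (hpos (x - t * x') (y - t * y') (z - t * z')) (Ne.symm h0)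
      set A : ℤ := tf a b c d e f x' y' z' - n with hA
      set B : ℤ := 2 * n * t - tb a b c d e f x y z x' y' z' with hB
      have e2 : t * (A * t + B) = tf a b c d e f (x - t * x') (y - t * y') (z - t * z') := by
        rw [e1, hA, hB, h]; ring
      rw [← e2] at hp hw
      have h1 : 0 < A * t + B := by
        by_contra hc
        push Not at hc
        exact absurd hp (not_lt.mpr (mul_nonpos_of_nonneg_of_nonpos ht.le hc))
      have h2 : A * t + B < t := by
        by_contra hc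
        push Not at hc
        have := mul_le_mul_of_nonneg_left hc ht.le
        rw [← pow_two] at this
        linarith
      refine ih (A * t + B) h1 (by push_cast at htT; linarith) (A * x + B * x') (A * y + B * y')
        (A * z + B * z') ?_
      rw [tf_comb, h]
      have h3 : tf a b c d e f x' y' z' = A + n := by rw [hA]; ring
      have h4 : tb a b c d e f x y z x' y' z' = 2 * n * t - B := by rw [hB]; ring
      rw [h3, h4]
      ring

/-- The nearest multiple. -/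
theorem near {t : ℤ} (ht : 0 < t) (m : ℤ) (hm : 0 < m) (x r : ℤ) :
    ∃ k : ℤ, |2 * (m * (x - t * k) + r)| ≤ m * t := by
  refine ⟨(2 * (m * x + r) + m * t) / (2 * (m * t)), ?_⟩
  have hmt : 0 < m * t := mul_pos hm ht
  have h1 := Int.emod_nonneg (2 * (m * x + r) + m * t) (show 2 * (m * t) ≠ 0 by positivity)
  have h2 := Int.emod_lt_of_pos (2 * (m * x + r) + m * t) (show 0 < 2 * (m * t) by positivity)
  have h3 := Int.mul_ediv_add_emod (2 * (m * x + r) + m * t) (2 * (m * t))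
  set q := (2 * (m * x + r) + m * t) / (2 * (m * t))
  set s := (2 * (m * x + r) + m * t) % (2 * (m * t))
  rw [abs_le]
  constructor
  · nlinarith
  · nlinarith

theorem sq_le {u v : ℤ} (h : |u| ≤ v) : u ^ 2 ≤ v ^ 2 := by
  have := pow_le_pow_left₀ (abs_nonneg u) h 2
  rwa [sq_abs] at this

/-! ### The four Euclidean forms -/

theorem pos_of_four {F P : ℤ} (h : 4 * F = P) (hP : 0 ≤ P) : 0 ≤ F := by omega

/-- `x² + (y² + yz + z²)` is Euclidean. -/
theorem dc113 (n : ℤ) (t : ℤ) (ht : 0 < t) (x y z : ℤ)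
    (h : tf 1 1 1 1 0 0 x y z = t ^ 2 * n) : ∃ x y z : ℤ, tf 1 1 1 1 0 0 x y z = n := by
  have e : ∀ x y z : ℤ, 4 * tf 1 1 1 1 0 0 x y z = 4 * x ^ 2 + (2 * y + z) ^ 2 + 3 * z ^ 2 := by
    intro x y z; simp only [tf]; ring
  refine davenport_cassels ?_ ?_ ?_ n t.toNat t ht (by omega) x y z h
  · intro x y z
    have := e x y z
    exact pos_of_four this (by positivity)
  · intro x y z h0
    have h1 := e x y z
    rw [h0] at h1
    have hx : x ^ 2 = 0 := by nlinarith [sq_nonneg x, sq_nonneg (2 * y + z), sq_nonneg z]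
    have hz : z ^ 2 = 0 := by nlinarith [sq_nonneg x, sq_nonneg (2 * y + z), sq_nonneg z]
    have hy : (2 * y + z) ^ 2 = 0 := by
      nlinarith [sq_nonneg x, sq_nonneg (2 * y + z), sq_nonneg z]
    have hx' : x = 0 := by simpa using hx
    have hz' : z = 0 := by simpa using hz
    have hy' : 2 * y + z = 0 := by simpa using hy
    exact ⟨hx', by omega, hz'⟩
  · intro t ht x y z
    obtain ⟨k1, h1⟩ := near ht 1 one_pos x 0
    obtain ⟨k3, h3⟩ := near ht 1 one_pos z 0
    obtain ⟨k2, h2⟩ := near ht 2 two_pos y (z - t * k3)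
    refine ⟨k1, k2, k3, ?_⟩
    have g1 := sq_le h1
    have g2 := sq_le h2
    have g3 := sq_le h3
    have := e (x - t * k1) (y - t * k2) (z - t * k3)
    have ht2 : 0 < t ^ 2 := by positivity
    nlinarith

/-- `2 y² + (x² + xz + z²)` is Euclidean. -/
theorem dc123 (n : ℤ) (t : ℤ) (ht : 0 < t) (x y z : ℤ)
    (h : tf 1 2 1 0 1 0 x y z = t ^ 2 * n) : ∃ x y z : ℤ, tf 1 2 1 0 1 0 x y z = n := by
  have e : ∀ x y z : ℤ, 4 * tf 1 2 1 0 1 0 x y z = 8 * y ^ 2 + (2 * x + z) ^ 2 + 3 * z ^ 2 := by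
    intro x y z; simp only [tf]; ring
  refine davenport_cassels ?_ ?_ ?_ n t.toNat t ht (by omega) x y z h
  · intro x y z
    have := e x y z
    exact pos_of_four this (by positivity)
  · intro x y z h0
    have h1 := e x y z
    rw [h0] at h1
    have hy : y ^ 2 = 0 := by nlinarith [sq_nonneg y, sq_nonneg (2 * x + z), sq_nonneg z]
    have hz : z ^ 2 = 0 := by nlinarith [sq_nonneg y, sq_nonneg (2 * x + z), sq_nonneg z]
    have hx : (2 * x + z) ^ 2 = 0 := by
      nlinarith [sq_nonneg y, sq_nonneg (2 * x + z), sq_nonneg z]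
    have hy' : y = 0 := by simpa using hy
    have hz' : z = 0 := by simpa using hz
    have hx' : 2 * x + z = 0 := by simpa using hx
    exact ⟨by omega, hy', hz'⟩
  · intro t ht x y z
    obtain ⟨k2, h2⟩ := near ht 1 one_pos y 0
    obtain ⟨k3, h3⟩ := near ht 1 one_pos z 0
    obtain ⟨k1, h1⟩ := near ht 2 two_pos x (z - t * k3)
    refine ⟨k1, k2, k3, ?_⟩
    have g1 := sq_le h1
    have g2 := sq_le h2
    have g3 := sq_le h3
    have := e (x - t * k1) (y - t * k2) (z - t * k3)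
    have ht2 : 0 < t ^ 2 := by positivity
    nlinarith

/-- `x² + y² + 2 z² + xy + xz + yz` is Euclidean. -/
theorem dc125even (n : ℤ) (t : ℤ) (ht : 0 < t) (x y z : ℤ)
    (h : tf 1 1 2 1 1 1 x y z = t ^ 2 * n) : ∃ x y z : ℤ, tf 1 1 2 1 1 1 x y z = n := by
  have e : ∀ x y z : ℤ, 12 * tf 1 1 2 1 1 1 x y z =
      3 * (2 * x + y + z) ^ 2 + (3 * y + z) ^ 2 + 20 * z ^ 2 := by
    intro x y z; simp only [tf]; ring
  refine davenport_cassels ?_ ?_ ?_ n t.toNat t ht (by omega) x y z h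
  · intro x y z
    have h1 := e x y z
    have : 0 ≤ 3 * (2 * x + y + z) ^ 2 + (3 * y + z) ^ 2 + 20 * z ^ 2 := by positivity
    omega
  · intro x y z h0
    have h1 := e x y z
    rw [h0] at h1
    have hx : (2 * x + y + z) ^ 2 = 0 := by
      nlinarith [sq_nonneg (2 * x + y + z), sq_nonneg (3 * y + z), sq_nonneg z]
    have hz : z ^ 2 = 0 := by
      nlinarith [sq_nonneg (2 * x + y + z), sq_nonneg (3 * y + z), sq_nonneg z]
    have hy : (3 * y + z) ^ 2 = 0 := by
      nlinarith [sq_nonneg (2 * x + y + z), sq_nonneg (3 * y + z), sq_nonneg z]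
    have hz' : z = 0 := by simpa using hz
    have hy' : 3 * y + z = 0 := by simpa using hy
    have hx' : 2 * x + y + z = 0 := by simpa using hx
    exact ⟨by omega, by omega, hz'⟩
  · intro t ht x y z
    obtain ⟨k3, h3⟩ := near ht 1 one_pos z 0
    obtain ⟨k2, h2⟩ := near ht 3 three_pos y (z - t * k3)
    obtain ⟨k1, h1⟩ := near ht 2 two_pos x ((y - t * k2) + (z - t * k3))
    refine ⟨k1, k2, k3, ?_⟩
    have g1 := sq_le h1
    have g2 := sq_le h2
    have g3 := sq_le h3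
    have := e (x - t * k1) (y - t * k2) (z - t * k3)
    have ht2 : 0 < t ^ 2 := by positivity
    nlinarith

/-- One coordinate of the body-centred lattice. -/
theorem bcc_aux {t X : ℤ} (hX : |X| ≤ t) :
    ∃ ε : ℤ, (ε = 1 ∨ ε = -1) ∧ (X - ε * t) ^ 2 = (t - |X|) ^ 2 ∧ |X| * (t - |X|) ≥ 0 := by
  rcases le_total 0 X with h | h
  · refine ⟨1, Or.inl rfl, ?_, ?_⟩
    · rw [abs_of_nonneg h]; ring
    · rw [abs_of_nonneg h] at hX ⊢; nlinarith
  · refine ⟨-1, Or.inr rfl, ?_, ?_⟩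
    · rw [abs_of_nonpos h]; ring
    · rw [abs_of_nonpos h] at hX ⊢; nlinarith

theorem bcc_final {t X Y Z : ℤ} (ht : 0 < t) (p1 : X * (t - X) ≥ 0) (p2 : Y * (t - Y) ≥ 0)
    (p3 : Z * (t - Z) ≥ 0) (q1 : 4 * t ^ 2 ≤ X ^ 2 + 2 * Y ^ 2 + 5 * Z ^ 2)
    (q2 : 4 * t ^ 2 ≤ (t - X) ^ 2 + 2 * (t - Y) ^ 2 + 5 * (t - Z) ^ 2) : False := by
  have s1 : X * (t - X) + 2 * (Y * (t - Y)) + 5 * (Z * (t - Z)) ≤ 0 := by linarith
  have s2 : X * (t - X) = 0 := by linarith
  have s3 : Y * (t - Y) = 0 := by linarith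
  have s4 : Z * (t - Z) = 0 := by linarith
  have s5 : X ^ 2 + 2 * Y ^ 2 + 5 * Z ^ 2 = 4 * t ^ 2 := by linarith
  have ht2 : 0 < t ^ 2 := by positivity
  have r : ∀ W : ℤ, W * (t - W) = 0 → W ^ 2 = 0 ∨ W ^ 2 = t ^ 2 := by
    intro W hW
    rcases mul_eq_zero.mp hW with h | h
    · left; rw [h]; rfl
    · right; rw [show W = t by linarith]
  rcases r X s2 with h | h <;> rcases r Y s3 with h' | h' <;> rcases r Z s4 with h'' | h'' <;>
    rw [h, h', h''] at s5 <;> linarith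

/-- `x² + 2 y² + 2 z² + xz + 2 yz` is Euclidean. -/
theorem dc125odd (n : ℤ) (t : ℤ) (ht : 0 < t) (x y z : ℤ)
    (h : tf 1 2 2 2 1 0 x y z = t ^ 2 * n) : ∃ x y z : ℤ, tf 1 2 2 2 1 0 x y z = n := by
  have e : ∀ x y z : ℤ, 4 * tf 1 2 2 2 1 0 x y z =
      (2 * x + z) ^ 2 + 2 * (2 * y + z) ^ 2 + 5 * z ^ 2 := by
    intro x y z; simp only [tf]; ring
  refine davenport_cassels ?_ ?_ ?_ n t.toNat t ht (by omega) x y z h
  · intro x y z
    exact pos_of_four (e x y z) (by positivity)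
  · intro x y z h0
    have h1 := e x y z
    rw [h0] at h1
    have hx : (2 * x + z) ^ 2 = 0 := by
      nlinarith [sq_nonneg (2 * x + z), sq_nonneg (2 * y + z), sq_nonneg z]
    have hz : z ^ 2 = 0 := by
      nlinarith [sq_nonneg (2 * x + z), sq_nonneg (2 * y + z), sq_nonneg z]
    have hy : (2 * y + z) ^ 2 = 0 := by
      nlinarith [sq_nonneg (2 * x + z), sq_nonneg (2 * y + z), sq_nonneg z]
    have hz' : z = 0 := by simpa using hz
    have hy' : 2 * y + z = 0 := by simpa using hy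
    have hx' : 2 * x + z = 0 := by simpa using hx
    exact ⟨by omega, by omega, hz'⟩
  · intro t ht x y z
    -- the layer of the lattice with even third coordinate
    have near2 : ∀ v : ℤ, ∃ k : ℤ, |v - t * (2 * k)| ≤ t := by
      intro v
      obtain ⟨k, hk⟩ := near (show 0 < 2 * t by positivity) 1 one_pos v 0
      refine ⟨k, ?_⟩
      have h1 : 2 * (1 * (v - 2 * t * k) + 0) = 2 * (v - t * (2 * k)) := by ring
      rw [h1, abs_mul] at hk
      norm_num at hk
      linarith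
    obtain ⟨k1, h1⟩ := near2 (2 * x + z)
    obtain ⟨k2, h2⟩ := near2 (2 * y + z)
    obtain ⟨k3, h3⟩ := near2 z
    obtain ⟨ε1, hε1, g1, p1⟩ := bcc_aux h1
    obtain ⟨ε2, hε2, g2, p2⟩ := bcc_aux h2
    obtain ⟨ε3, hε3, g3, p3⟩ := bcc_aux h3
    have a1 := sq_abs (2 * x + z - t * (2 * k1))
    have a2 := sq_abs (2 * y + z - t * (2 * k2))
    have a3 := sq_abs (z - t * (2 * k3))
    by_contra hcon
    push Not at hcon
    have c1 := hcon (k1 - k3) (k2 - k3) (2 * k3)
    have c2 := e (x - t * (k1 - k3)) (y - t * (k2 - k3)) (z - t * (2 * k3))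
    rw [show 2 * (x - t * (k1 - k3)) + (z - t * (2 * k3)) = 2 * x + z - t * (2 * k1) by ring,
      show 2 * (y - t * (k2 - k3)) + (z - t * (2 * k3)) = 2 * y + z - t * (2 * k2) by ring] at c2
    obtain ⟨l1, hl1⟩ : ∃ l1, 2 * l1 = ε1 - ε3 := by
      rcases hε1 with rfl | rfl <;> rcases hε3 with rfl | rfl
      exacts [⟨0, rfl⟩, ⟨1, rfl⟩, ⟨-1, rfl⟩, ⟨0, rfl⟩]
    obtain ⟨l2, hl2⟩ : ∃ l2, 2 * l2 = ε2 - ε3 := by
      rcases hε2 with rfl | rfl <;> rcases hε3 with rfl | rfl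
      exacts [⟨0, rfl⟩, ⟨1, rfl⟩, ⟨-1, rfl⟩, ⟨0, rfl⟩]
    have c4 : 4 * t ^ 2 ≤ 4 * tf 1 2 2 2 1 0 (x - t * (k1 - k3 + l1)) (y - t * (k2 - k3 + l2))
        (z - t * (2 * k3 + ε3)) := by
      have := hcon (k1 - k3 + l1) (k2 - k3 + l2) (2 * k3 + ε3)
      linarith
    rw [e] at c4
    rw [show 2 * (x - t * (k1 - k3 + l1)) + (z - t * (2 * k3 + ε3)) =
        2 * x + z - t * (2 * k1) - ε1 * t by linear_combination -t * hl1,
      show 2 * (y - t * (k2 - k3 + l2)) + (z - t * (2 * k3 + ε3)) =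
        2 * y + z - t * (2 * k2) - ε2 * t by linear_combination -t * hl2,
      show z - t * (2 * k3 + ε3) = z - t * (2 * k3) - ε3 * t by ring, g1, g2, g3] at c4
    rw [← a1, ← a2, ← a3] at c2
    have q1 : 4 * t ^ 2 ≤ |2 * x + z - t * (2 * k1)| ^ 2 + 2 * |2 * y + z - t * (2 * k2)| ^ 2 +
      5 * |z - t * (2 * k3)| ^ 2 := by linarith
    exact bcc_final ht p1 p2 p3 q1 c4

/-! ### From rational to integral representations -/

/-- Clearing denominators. -/
theorem clear_denoms {a b c n : ℤ} (h : ∃ x y z : ℚ, (a : ℚ) * x ^ 2 + b * y ^ 2 + c * z ^ 2 = n) :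
    ∃ t : ℤ, 0 < t ∧ ∃ x y z : ℤ, a * x ^ 2 + b * y ^ 2 + c * z ^ 2 = t ^ 2 * n := by
  obtain ⟨x, y, z, h⟩ := h
  refine ⟨x.den * y.den * z.den, by positivity, x.num * (y.den * z.den), y.num * (x.den * z.den),
    z.num * (x.den * y.den), ?_⟩
  have hx : (x.num : ℚ) = x * x.den := (Rat.mul_den_eq_num x).symm
  have hy : (y.num : ℚ) = y * y.den := (Rat.mul_den_eq_num y).symm
  have hz : (z.num : ℚ) = z * z.den := (Rat.mul_den_eq_num z).symm
  have : ((a * (x.num * (y.den * z.den)) ^ 2 + b * (y.num * (x.den * z.den)) ^ 2 +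
      c * (z.num * (x.den * y.den)) ^ 2 : ℤ) : ℚ) = ((x.den * y.den * z.den : ℤ) ^ 2 * n : ℤ) := by
    push_cast
    rw [hx, hy, hz, ← h]
    ring
  exact_mod_cast this

/-- The norm form of `ℤ[ω]` and the form `u² + 3 v²` have the same values. -/
theorem eisenstein (y z : ℤ) : ∃ u v : ℤ, u ^ 2 + 3 * v ^ 2 = y ^ 2 + y * z + z ^ 2 := by
  rcases Int.even_or_odd' y with ⟨m, rfl | rfl⟩
  · exact ⟨z + m, m, by ring⟩
  · rcases Int.even_or_odd' z with ⟨k, rfl | rfl⟩
    · exact ⟨2 * m + 1 + k, k, by ring⟩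
    · exact ⟨m - k, m + k + 1, by ring⟩

theorem int113 (n : ℤ) (h : ∃ x y z : ℚ, x ^ 2 + y ^ 2 + 3 * z ^ 2 = n) :
    ∃ x y z : ℤ, x ^ 2 + y ^ 2 + 3 * z ^ 2 = n := by
  obtain ⟨t, ht, x, y, z, h⟩ := clear_denoms (a := 1) (b := 1) (c := 3) (n := n)
    (by simpa using h)
  obtain ⟨x, y, z, h⟩ := dc113 n t ht x (y - z) (2 * z) (by
    rw [← h]; simp only [tf]; ring)
  obtain ⟨u, v, huv⟩ := eisenstein y z
  refine ⟨x, u, v, ?_⟩
  rw [← h, add_assoc, huv]
  simp only [tf]; ring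

theorem int123 (n : ℤ) (h : ∃ x y z : ℚ, x ^ 2 + 2 * y ^ 2 + 3 * z ^ 2 = n) :
    ∃ x y z : ℤ, x ^ 2 + 2 * y ^ 2 + 3 * z ^ 2 = n := by
  obtain ⟨t, ht, x, y, z, h⟩ := clear_denoms (a := 1) (b := 2) (c := 3) (n := n)
    (by simpa using h)
  obtain ⟨x, y, z, h⟩ := dc123 n t ht (x - z) y (2 * z) (by
    rw [← h]; simp only [tf]; ring)
  obtain ⟨u, v, huv⟩ := eisenstein x z
  refine ⟨u, y, v, ?_⟩
  rw [← h, add_right_comm, huv]
  simp only [tf]; ring

theorem int125 (n : ℤ) (h : ∃ x y z : ℚ, x ^ 2 + 2 * y ^ 2 + 5 * z ^ 2 = n) :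
    ∃ x y z : ℤ, x ^ 2 + 2 * y ^ 2 + 5 * z ^ 2 = n := by
  obtain ⟨t, ht, x, y, z, h⟩ := clear_denoms (a := 1) (b := 2) (c := 5) (n := n)
    (by simpa using h)
  rcases Int.even_or_odd' n with ⟨m, rfl | rfl⟩
  · -- even numbers
    have hpar : (x - z) % 2 = 0 := by
      have h1 : (x ^ 2 + z ^ 2) % 2 = 0 := by
        have : x ^ 2 + z ^ 2 = 2 * (t ^ 2 * m - y ^ 2 - 2 * z ^ 2) := by linear_combination h
        omega
      rcases Int.even_or_odd' x with ⟨a, rfl | rfl⟩ <;>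
        rcases Int.even_or_odd' z with ⟨b, rfl | rfl⟩ <;> ring_nf at h1 <;> omega
    obtain ⟨s, hs⟩ : ∃ s, x = z + 2 * s := ⟨(x - z) / 2, by omega⟩
    subst hs
    obtain ⟨a, b, c, h⟩ := dc125even m t ht (y + z) (z - y) s (by
      simp only [tf]; linarith)
    have key : ∀ a b c : ℤ, (a - b) % 2 = 0 → tf 1 1 2 1 1 1 a b c = m →
        ∃ x y z : ℤ, x ^ 2 + 2 * y ^ 2 + 5 * z ^ 2 = 2 * m := by
      intro a b c hab h
      obtain ⟨y, hy⟩ : ∃ y, a = b + 2 * y := ⟨(a - b) / 2, by omega⟩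
      subst hy
      refine ⟨2 * c + (b + y), y, b + y, ?_⟩
      rw [← h]
      simp only [tf]; ring
    rcases Int.emod_two_eq_zero_or_one (a - b) with h1 | h1
    · exact key a b c h1 h
    · rcases Int.emod_two_eq_zero_or_one (b - c) with h2 | h2
      · refine key (-a - b - c) a c (by omega) ?_
        rw [← h]; simp only [tf]; ring
      · refine key b (-a - b - c) c (by omega) ?_
        rw [← h]; simp only [tf]; ring
  · -- odd numbers
    obtain ⟨x, y, w, h⟩ := dc125odd (2 * m + 1) t ht (x - z) (y - z) (2 * z) (by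
      rw [← h]; simp only [tf]; ring)
    have h1 : x * (x + w) = 2 * (m - y ^ 2 - w ^ 2 - y * w) + 1 := by
      have : tf 1 2 2 2 1 0 x y w = x * (x + w) + 2 * (y ^ 2 + w ^ 2 + y * w) := by
        simp only [tf]; ring
      linarith
    obtain ⟨v, hv⟩ : ∃ v, w = 2 * v := by
      rcases Int.even_or_odd' w with ⟨v, hv | hv⟩
      · exact ⟨v, hv⟩
      · exfalso
        rcases Int.even_or_odd' x with ⟨a, rfl | rfl⟩
        · have : 2 * a * (2 * a + w) = 2 * (a * (2 * a + w)) := by ring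
          omega
        · have : (2 * a + 1) * (2 * a + 1 + w) = 2 * ((2 * a + 1) * (a + v + 1)) := by
            rw [hv]; ring
          omega
    subst hv
    refine ⟨x + v, y + v, v, ?_⟩
    rw [← h]
    simp only [tf]; ring

end Fermat.Agent.Cor.Ram
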