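/-
RAMANUJAN'S 54 UNIVERSAL DIAGONAL QUATERNARY FORMS: the necessity.

If `1 ≤ a ≤ b ≤ c ≤ d` and `a x² + b y² + c z² + d w²` represents `1, 2, 3, 5, 6, 7, 10, 14, 15`,
then `(a, b, c, d)` is one of the 54 quadruples of the definition `IsRam`.
Everything here is over Mathlib alone.
-/
import Mathlib.Tactic.Ring
import Mathlib.Tactic.Linarith
import Mathlib.Tactic.IntervalCases
import Mathlib.Tactic.Zify
import Mathlib.Algebra.Order.Ring.Int
import Mathlib.Algebra.Order.Ring.Abs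
import Mathlib.Data.Set.Card
import Mathlib.Data.Int.NatAbs

set_option autoImplicit false

namespace Fermat.Agent.Cor.Ram

/-- The 54 quadruples of Ramanujan. -/
def IsRam (a b c d : ℕ) : Prop :=
  (a = 1 ∧ b = 1 ∧ c = 1 ∧ 1 ≤ d ∧ d ≤ 7) ∨
  (a = 1 ∧ b = 1 ∧ c = 2 ∧ 2 ≤ d ∧ d ≤ 14) ∨
  (a = 1 ∧ b = 1 ∧ c = 3 ∧ 3 ≤ d ∧ d ≤ 6) ∨
  (a = 1 ∧ b = 2 ∧ c = 2 ∧ 2 ≤ d ∧ d ≤ 7) ∨
  (a = 1 ∧ b = 2 ∧ c = 3 ∧ 3 ≤ d ∧ d ≤ 10) ∨
  (a = 1 ∧ b = 2 ∧ c = 4 ∧ 4 ≤ d ∧ d ≤ 14) ∨
  (a = 1 ∧ b = 2 ∧ c = 5 ∧ 6 ≤ d ∧ d ≤ 10)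

instance (a b c d : ℕ) : Decidable (IsRam a b c d) := by
  unfold IsRam
  infer_instance

theorem nat_of_int {a b c d n : ℕ}
    (h : ∃ x y z w : ℤ, (a : ℤ) * x ^ 2 + b * y ^ 2 + c * z ^ 2 + d * w ^ 2 = n) :
    ∃ x y z w : ℕ, a * x ^ 2 + b * y ^ 2 + c * z ^ 2 + d * w ^ 2 = n := by
  obtain ⟨x, y, z, w, h⟩ := h
  refine ⟨x.natAbs, y.natAbs, z.natAbs, w.natAbs, ?_⟩
  zify
  simpa only [sq_abs] using h

/-- A coefficient larger than the number cannot occur. -/
theorem z0 {e k n : ℕ} (he : n < e) (h : e * k ^ 2 ≤ n) : k = 0 := by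
  by_contra hk
  have h1 : 1 ≤ k ^ 2 := Nat.one_le_pow _ _ (Nat.pos_of_ne_zero hk)
  nlinarith

theorem lt4 {k n : ℕ} (hn : n ≤ 15) (h : k ^ 2 ≤ n) : k < 4 := by
  by_contra hk
  have h1 : 4 ≤ k := not_lt.1 hk
  nlinarith

/-- The numbers which decide. -/
def test : Finset ℕ := {1, 2, 3, 5, 6, 7, 10, 14, 15}

theorem need_nat {a b c d : ℕ} (ha : 1 ≤ a) (hab : a ≤ b) (hbc : b ≤ c) (hcd : c ≤ d)
    (h : ∀ n ∈ test, ∃ x y z w : ℕ, a * x ^ 2 + b * y ^ 2 + c * z ^ 2 + d * w ^ 2 = n) :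
    IsRam a b c d := by
  -- the first coefficient
  have ha1 : a = 1 := by
    by_contra hne
    have ha2 : 1 < a := lt_of_le_of_ne ha (Ne.symm hne)
    obtain ⟨x, y, z, w, e⟩ := h 1 (by decide)
    have hx := z0 ha2 (k := x) (by omega)
    have hy := z0 (ha2.trans_le hab) (k := y) (by omega)
    have hz := z0 (ha2.trans_le (hab.trans hbc)) (k := z) (by omega)
    have hw := z0 (ha2.trans_le (hab.trans (hbc.trans hcd))) (k := w) (by omega)
    subst hx hy hz hw
    simp at e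
  subst ha1
  -- the second coefficient
  have hb2 : b ≤ 2 := by
    by_contra hne
    have hb3 : 2 < b := not_le.1 hne
    obtain ⟨x, y, z, w, e⟩ := h 2 (by decide)
    have hy := z0 hb3 (k := y) (by omega)
    have hz := z0 (hb3.trans_le hbc) (k := z) (by omega)
    have hw := z0 (hb3.trans_le (hbc.trans hcd)) (k := w) (by omega)
    subst hy hz hw
    have hx : x < 4 := lt4 (n := 2) (by norm_num) (by omega)
    interval_cases x <;> simp at e
  -- the last two coefficients, for a given pair (1, b)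
  have key3 : ∀ n ∈ test, n < c → ∃ x < 4, ∃ y < 4, 1 * x ^ 2 + b * y ^ 2 = n := by
    intro n hn hnc
    obtain ⟨x, y, z, w, e⟩ := h n hn
    have hn15 : n ≤ 15 := by
      have h15 : ∀ m ∈ test, m ≤ 15 := by decide
      exact h15 n hn
    have hz := z0 hnc (k := z) (by omega)
    have hw := z0 (hnc.trans_le hcd) (k := w) (by omega)
    subst hz hw
    have hx : x < 4 := lt4 hn15 (by omega)
    have hy : y < 4 := lt4 hn15 (by nlinarith [Nat.zero_le (x ^ 2), Nat.zero_le (y ^ 2)])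
    exact ⟨x, hx, y, hy, by simpa using e⟩
  have key4 : ∀ n ∈ test, n < d → ∃ x < 4, ∃ y < 4, ∃ z < 4,
      1 * x ^ 2 + b * y ^ 2 + c * z ^ 2 = n := by
    intro n hn hnd
    obtain ⟨x, y, z, w, e⟩ := h n hn
    have hn15 : n ≤ 15 := by
      have h15 : ∀ m ∈ test, m ≤ 15 := by decide
      exact h15 n hn
    have hw := z0 hnd (k := w) (by omega)
    subst hw
    have hx : x < 4 := lt4 hn15 (by omega)
    have hy : y < 4 := lt4 hn15 (by nlinarith [Nat.zero_le (x ^ 2), Nat.zero_le (y ^ 2)])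
    have hz : z < 4 := by
      apply lt4 hn15
      nlinarith [Nat.zero_le (x ^ 2), Nat.zero_le (b * y ^ 2), Nat.zero_le (z ^ 2),
        hab.trans hbc]
    exact ⟨x, hx, y, hy, z, hz, by simpa using e⟩
  have hb : b = 1 ∨ b = 2 := by omega
  rcases hb with rfl | rfl
  · -- (1, 1, c, d)
    have hc3 : c ≤ 3 := by
      by_contra hne
      exact absurd (key3 3 (by decide) (not_le.1 hne)) (by decide)
    have hc : c = 1 ∨ c = 2 ∨ c = 3 := by omega
    rcases hc with rfl | rfl | rfl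
    · have hd : d ≤ 7 := by
        by_contra hne
        exact absurd (key4 7 (by decide) (not_le.1 hne)) (by decide)
      unfold IsRam
      omega
    · have hd : d ≤ 14 := by
        by_contra hne
        exact absurd (key4 14 (by decide) (not_le.1 hne)) (by decide)
      unfold IsRam
      omega
    · have hd : d ≤ 6 := by
        by_contra hne
        exact absurd (key4 6 (by decide) (not_le.1 hne)) (by decide)
      unfold IsRam
      omega
  · -- (1, 2, c, d)
    have hc5 : c ≤ 5 := by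
      by_contra hne
      exact absurd (key3 5 (by decide) (not_le.1 hne)) (by decide)
    have hc : c = 2 ∨ c = 3 ∨ c = 4 ∨ c = 5 := by omega
    rcases hc with rfl | rfl | rfl | rfl
    · have hd : d ≤ 7 := by
        by_contra hne
        exact absurd (key4 7 (by decide) (not_le.1 hne)) (by decide)
      unfold IsRam
      omega
    · have hd : d ≤ 10 := by
        by_contra hne
        exact absurd (key4 10 (by decide) (not_le.1 hne)) (by decide)
      unfold IsRam
      omega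
    · have hd : d ≤ 14 := by
        by_contra hne
        exact absurd (key4 14 (by decide) (not_le.1 hne)) (by decide)
      unfold IsRam
      omega
    · have hd : d ≤ 10 := by
        by_contra hne
        exact absurd (key4 10 (by decide) (not_le.1 hne)) (by decide)
      have hd5 : d ≠ 5 := by
        rintro rfl
        obtain ⟨x, y, z, w, e⟩ := h 15 (by decide)
        have hx : x < 4 := lt4 le_rfl (by omega)
        have hy : y < 4 := lt4 le_rfl (by omega)
        have hz : z < 4 := lt4 le_rfl (by omega)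
        have hw : w < 4 := lt4 le_rfl (by omega)
        have hno : ∀ x < 4, ∀ y < 4, ∀ z < 4, ∀ w < 4,
            1 * x ^ 2 + 2 * y ^ 2 + 5 * z ^ 2 + 5 * w ^ 2 ≠ 15 := by decide +kernel
        exact hno x hx y hy z hz w hw e
      unfold IsRam
      omega

/-- **The necessity**: a form `a x² + b y² + c z² + d w²` with `1 ≤ a ≤ b ≤ c ≤ d` which represents
`1, 2, 3, 5, 6, 7, 10, 14, 15` is one of the 54 forms of Ramanujan. -/
theorem need {a b c d : ℕ} (ha : 1 ≤ a) (hab : a ≤ b) (hbc : b ≤ c) (hcd : c ≤ d)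
    (h : ∀ n ∈ ({1, 2, 3, 5, 6, 7, 10, 14, 15} : Finset ℕ),
      ∃ x y z w : ℤ, (a : ℤ) * x ^ 2 + b * y ^ 2 + c * z ^ 2 + d * w ^ 2 = n) :
    IsRam a b c d :=
  need_nat ha hab hbc hcd fun n hn => nat_of_int (h n hn)

/-- There are exactly 54 quadruples. -/
theorem ncard_isRam : {v : ℕ × ℕ × ℕ × ℕ | IsRam v.1 v.2.1 v.2.2.1 v.2.2.2}.ncard = 54 := by
  have h : {v : ℕ × ℕ × ℕ × ℕ | IsRam v.1 v.2.1 v.2.2.1 v.2.2.2} =
      ((Finset.range 2 ×ˢ Finset.range 3 ×ˢ Finset.range 6 ×ˢ Finset.range 15).filter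
        fun v => IsRam v.1 v.2.1 v.2.2.1 v.2.2.2 : Finset (ℕ × ℕ × ℕ × ℕ)) := by
    ext ⟨a, b, c, d⟩
    simp only [Set.mem_ofPred_eq, Finset.coe_filter, Finset.mem_product, Finset.mem_range]
    constructor
    · intro h
      refine ⟨?_, h⟩
      unfold IsRam at h
      omega
    · exact fun h => h.2
  rw [h, Set.ncard_coe_finset]
  decide +kernel

end Fermat.Agent.Cor.Ram
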