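import Fermat.Agent.Corollaries.HM.Rational

/-!
# `x ^ 2 + y ^ 2 + 3 z ^ 2` over `ℚ`

Every natural number which is not of the form `9 ^ a (9 b + 6)` is represented by
`x ^ 2 + y ^ 2 + 3 z ^ 2` over `ℚ` (theorem of Hasse and Minkowski).
-/

namespace Fermat.Agent.Cor.Ram.R113

open Polynomial

/-- square roots in `ℚ_p`, `p` odd -/
theorem exists_sq {p : ℕ} [hp : Fact p.Prime] (hp2 : p ≠ 2) {u c : ℤ} (hc : ¬ (p : ℤ) ∣ c)
    (h : (p : ℤ) ∣ c ^ 2 - u) : ∃ z : ℚ_[p], z ^ 2 = u := by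
  have h2 : ¬ (p : ℤ) ∣ 2 * c := by
    intro h3
    rcases (Nat.prime_iff_prime_int.1 hp.out).dvd_or_dvd h3 with h4 | h4
    · have h5 : p ∣ 2 := by exact_mod_cast h4
      exact hp2 ((Nat.prime_dvd_prime_iff_eq hp.out Nat.prime_two).1 h5)
    · exact hc h4
  have hF : ‖(X ^ 2 - C (u : ℤ_[p]) : ℤ_[p][X]).aeval (c : ℤ_[p])‖ <
      ‖(X ^ 2 - C (u : ℤ_[p]) : ℤ_[p][X]).derivative.aeval (c : ℤ_[p])‖ ^ 2 := by
    have e1 : (X ^ 2 - C (u : ℤ_[p]) : ℤ_[p][X]).aeval (c : ℤ_[p]) = ((c ^ 2 - u : ℤ) : ℤ_[p]) := by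
      simp
    have e2 : (X ^ 2 - C (u : ℤ_[p]) : ℤ_[p][X]).derivative.aeval (c : ℤ_[p]) =
        ((2 * c : ℤ) : ℤ_[p]) := by
      norm_num
    have e3 : ‖((2 * c : ℤ) : ℤ_[p])‖ = 1 := by
      refine le_antisymm (PadicInt.norm_le_one _) (not_lt.1 fun h3 => h2 ?_)
      exact (PadicInt.norm_int_lt_one_iff_dvd _).1 h3
    rw [e1, e2, e3, one_pow]
    exact (PadicInt.norm_int_lt_one_iff_dvd _).2 h
  obtain ⟨z, hz, -⟩ := hensels_lemma hF
  refine ⟨z, ?_⟩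
  have h3 : z ^ 2 - (u : ℤ_[p]) = 0 := by simpa using hz
  have h4 := congrArg (fun t : ℤ_[p] => (t : ℚ_[p])) (sub_eq_zero.1 h3)
  push_cast at h4
  exact h4

/-- square roots in `ℚ_2` -/
theorem exists_sq_two {u : ℤ} (h : (8 : ℤ) ∣ 1 - u) : ∃ z : ℚ_[2], z ^ 2 = u := by
  have hF : ‖(X ^ 2 - C (u : ℤ_[2]) : ℤ_[2][X]).aeval (1 : ℤ_[2])‖ <
      ‖(X ^ 2 - C (u : ℤ_[2]) : ℤ_[2][X]).derivative.aeval (1 : ℤ_[2])‖ ^ 2 := by
    have e1 : (X ^ 2 - C (u : ℤ_[2]) : ℤ_[2][X]).aeval (1 : ℤ_[2]) = ((1 - u : ℤ) : ℤ_[2]) := by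
      simp
    have e2 : (X ^ 2 - C (u : ℤ_[2]) : ℤ_[2][X]).derivative.aeval (1 : ℤ_[2]) =
        ((2 : ℕ) : ℤ_[2]) := by
      norm_num
    have e3 : ‖((1 - u : ℤ) : ℤ_[2])‖ ≤ (2 : ℝ) ^ (-3 : ℤ) := by
      have h8 : ((2 : ℕ) : ℤ) ^ 3 ∣ 1 - u := by norm_num; exact h
      have := PadicInt.norm_int_le_pow_iff_dvd.2 h8
      exact_mod_cast this
    rw [e1, e2, PadicInt.norm_p]
    refine e3.trans_lt ?_
    norm_num
  obtain ⟨z, hz, -⟩ := hensels_lemma hF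
  refine ⟨z, ?_⟩
  have h3 : z ^ 2 - (u : ℤ_[2]) = 0 := by simpa using hz
  have h4 := congrArg (fun t : ℤ_[2] => (t : ℚ_[2])) (sub_eq_zero.1 h3)
  push_cast at h4
  exact h4

/-- `⟨1, 1, 3⟩` is isotropic in `ℚ_p`, `p ≠ 3` -/
theorem isotropic {p : ℕ} [hp : Fact p.Prime] (hp3 : p ≠ 3) :
    ∃ x y z : ℚ_[p], (x, y, z) ≠ 0 ∧ x ^ 2 + y ^ 2 + 3 * z ^ 2 = 0 := by
  by_cases hp2 : p = 2
  · subst hp2
    obtain ⟨w, hw⟩ := exists_sq_two (u := -15) (by norm_num)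
    refine ⟨1, 2, w / 3, by simp, ?_⟩
    rw [div_pow, hw]
    norm_num
  · obtain ⟨a, b, hab⟩ := ZMod.sq_add_sq p (-3 : ZMod p)
    obtain ⟨a, rfl⟩ := ZMod.intCast_surjective a
    obtain ⟨b, rfl⟩ := ZMod.intCast_surjective b
    have h1 : (p : ℤ) ∣ a ^ 2 + b ^ 2 + 3 := by
      rw [← ZMod.intCast_zmod_eq_zero_iff_dvd]
      push_cast
      rw [hab]
      ring
    have key : ∀ a b : ℤ, (p : ℤ) ∣ a ^ 2 + b ^ 2 + 3 → ¬ (p : ℤ) ∣ a →
        ∃ x y z : ℚ_[p], (x, y, z) ≠ 0 ∧ x ^ 2 + y ^ 2 + 3 * z ^ 2 = 0 := by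
      intro a b h1 ha
      obtain ⟨w, hw⟩ := exists_sq hp2 (u := -3 - b ^ 2) ha (by
        have e : a ^ 2 - (-3 - b ^ 2) = a ^ 2 + b ^ 2 + 3 := by ring
        rw [e]; exact h1)
      refine ⟨w, b, 1, by simp, ?_⟩
      rw [hw]
      push_cast
      ring
    by_cases ha : (p : ℤ) ∣ a
    · by_cases hb : (p : ℤ) ∣ b
      · exfalso
        have h2 : (p : ℤ) ∣ 3 := by
          have e : (3 : ℤ) = (a ^ 2 + b ^ 2 + 3) - a * a - b * b := by ring
          rw [e]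
          exact (h1.sub (ha.mul_right a)).sub (hb.mul_right b)
        have h3 : p ∣ 3 := by exact_mod_cast h2
        exact hp3 ((Nat.prime_dvd_prime_iff_eq hp.out Nat.prime_three).1 h3)
      · exact key b a (by rwa [add_comm (b ^ 2)]) hb
    · exact key a b h1 ha

/-- the condition at `3` -/
theorem at_three {n : ℕ} (hn : n ≠ 0) (h : ∀ a b : ℕ, n ≠ 9 ^ a * (9 * b + 6)) :
    ∃ x y z : ℚ_[3], x ^ 2 + y ^ 2 + 3 * z ^ 2 = n := by
  obtain ⟨k, m, hm, hnm⟩ := Nat.exists_eq_pow_mul_and_not_dvd hn 3 (by norm_num)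
  have hm3 : m % 3 = 1 ∨ m % 3 = 2 := by omega
  rcases Nat.even_or_odd' k with ⟨a, rfl | rfl⟩
  · have hn' : (n : ℚ_[3]) = (3 ^ a) ^ 2 * (m : ℤ) := by
      rw [hnm]; push_cast; rw [← pow_mul, mul_comm a 2]
    rcases hm3 with h3 | h3
    · obtain ⟨w, hw⟩ := exists_sq (p := 3) (by norm_num) (u := m) (c := 1) (by norm_num)
        (by push_cast; omega)
      refine ⟨3 ^ a * w, 0, 0, ?_⟩
      rw [mul_pow, hw, hn']
      ring
    · obtain ⟨w, hw⟩ := exists_sq (p := 3) (by norm_num) (u := m - 1) (c := 1) (by norm_num)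
        (by push_cast; omega)
      refine ⟨3 ^ a * w, 3 ^ a, 0, ?_⟩
      rw [mul_pow, hw, hn']
      push_cast
      ring
  · have hn' : (n : ℚ_[3]) = 3 * ((3 ^ a) ^ 2 * (m : ℤ)) := by
      rw [hnm]; push_cast; ring
    rcases hm3 with h3 | h3
    · obtain ⟨w, hw⟩ := exists_sq (p := 3) (by norm_num) (u := m) (c := 1) (by norm_num)
        (by push_cast; omega)
      refine ⟨0, 0, 3 ^ a * w, ?_⟩
      rw [mul_pow, hw, hn']
      ring
    · exfalso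
      refine h a (m / 3) ?_
      have h4 : m = 3 * (m / 3) + 2 := by omega
      rw [hnm]
      have h5 : 9 * (m / 3) + 6 = 3 * m := by omega
      have h6 : (9 : ℕ) = 3 ^ 2 := by norm_num
      rw [h5, h6, ← pow_mul, pow_succ]
      ring

end Fermat.Agent.Cor.Ram.R113

namespace Fermat.Agent.Cor.Ram

/-- Every natural number `n ≠ 9 ^ a (9 b + 6)` is represented by `x ^ 2 + y ^ 2 + 3 z ^ 2` over
`ℚ`. -/
theorem rat113 (n : ℕ) (h : ∀ a b : ℕ, n ≠ 9 ^ a * (9 * b + 6)) :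
    ∃ x y z : ℚ, x ^ 2 + y ^ 2 + 3 * z ^ 2 = n := by
  rcases Nat.eq_zero_or_pos n with rfl | hn
  · exact ⟨0, 0, 0, by norm_num⟩
  have hHM := (HM.hasse_minkowski_rat_diag ![1, 1, 3, -(n : ℚ)]).2 ⟨?_, ?_⟩
  · obtain ⟨v, hv0, hv⟩ := hHM
    simp only [Fin.sum_univ_four, Matrix.cons_val_zero, Matrix.cons_val_one, Matrix.cons_val] at hv
    by_cases hw : v 3 = 0
    · exfalso
      rw [hw] at hv
      have h0 : v 0 = 0 := by nlinarith [sq_nonneg (v 0), sq_nonneg (v 1), sq_nonneg (v 2)]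
      have h1 : v 1 = 0 := by nlinarith [sq_nonneg (v 0), sq_nonneg (v 1), sq_nonneg (v 2)]
      have h2 : v 2 = 0 := by nlinarith [sq_nonneg (v 0), sq_nonneg (v 1), sq_nonneg (v 2)]
      apply hv0
      funext i
      fin_cases i
      · exact h0
      · exact h1
      · exact h2
      · exact hw
    · refine ⟨v 0 / v 3, v 1 / v 3, v 2 / v 3, ?_⟩
      field_simp
      linear_combination hv
  · refine ⟨![Real.sqrt n, 0, 0, 1], ?_, ?_⟩
    · intro h0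
      have := congrFun h0 3
      simp at this
    · simp only [Fin.sum_univ_four, Matrix.cons_val_zero, Matrix.cons_val_one, Matrix.cons_val]
      push_cast
      rw [Real.sq_sqrt (Nat.cast_nonneg n)]
      ring
  · intro p hp
    by_cases hp3 : p = 3
    · subst hp3
      obtain ⟨x, y, z, hxyz⟩ := R113.at_three hn.ne' h
      refine ⟨![x, y, z, 1], ?_, ?_⟩
      · intro h0
        have := congrFun h0 3
        simp at this
      · simp only [Fin.sum_univ_four, Matrix.cons_val_zero, Matrix.cons_val_one, Matrix.cons_val]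
        push_cast
        linear_combination hxyz
    · obtain ⟨x, y, z, h0, hxyz⟩ := R113.isotropic hp3
      refine ⟨![x, y, z, 0], ?_, ?_⟩
      · intro h1
        apply h0
        have e0 := congrFun h1 0
        have e1 := congrFun h1 1
        have e2 := congrFun h1 2
        simp only [Matrix.cons_val_zero, Matrix.cons_val_one, Matrix.cons_val, Pi.zero_apply]
          at e0 e1 e2
        rw [e0, e1, e2]
        rfl
      · simp only [Fin.sum_univ_four, Matrix.cons_val_zero, Matrix.cons_val_one, Matrix.cons_val]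
        push_cast
        linear_combination hxyz

end Fermat.Agent.Cor.Ram
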