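import Fermat.Agent.Corollaries.HM.Rational
import Fermat.Agent.Corollaries.HM.NoHasse

/-!
# The rational numbers represented by `x² + 2 y² + 3 z²`
-/

set_option autoImplicit false

namespace Fermat.Agent.Cor.Ram

open Polynomial

/-- An integer `≡ 1 mod 8` is a square in `ℚ_2`. -/
theorem isSquare_two_padic {k : ℤ} (hk : k % 8 = 1) : IsSquare (k : ℚ_[2]) := by
  have h1 : IsSquare (k : ℤ_[2]) := by
    apply Hilb.isSquare_of_norm
    have h2 : ‖((k - 1 : ℤ) : ℤ_[2])‖ ≤ ((2 : ℕ) : ℝ) ^ (-(3 : ℕ) : ℤ) :=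
      PadicInt.norm_int_le_pow_iff_dvd.mpr (by
        have : (8 : ℤ) ∣ k - 1 := by omega
        simpa using this)
    have h3 : ‖(2 : ℤ_[2])‖ = 2⁻¹ := by simpa using PadicInt.norm_p (p := 2)
    push_cast at h2
    rw [h3]
    refine lt_of_le_of_lt h2 ?_
    norm_num
  obtain ⟨z, hz⟩ := h1
  exact HN.NoHasse.coe_sq (p := 2) (k := k) (z := z) (by rw [hz, sq])

/-- An odd number is its residue modulo `8` times a square of `ℚ_2`. -/
theorem exists_sq_of_mod {m r : ℕ} (hm : m % 8 = r) (h0 : r = 1 ∨ r = 3 ∨ r = 5 ∨ r = 7) :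
    ∃ s : ℚ_[2], (m : ℚ_[2]) = (r : ℚ_[2]) * s ^ 2 := by
  have hr : (r : ℚ_[2]) ≠ 0 := by
    rw [Nat.cast_ne_zero]
    omega
  obtain ⟨t, ht⟩ := isSquare_two_padic (k := (m : ℤ) * (r : ℤ)) (by
    rcases h0 with h | h | h | h <;> subst h <;> push_cast <;> omega)
  refine ⟨t / (r : ℚ_[2]), ?_⟩
  push_cast at ht
  field_simp
  linear_combination ht

/-- A ternary form with unit coefficients is isotropic over `ℚ_p`, `p` odd. -/
theorem exists_isotropic_of_units {p : ℕ} [hp : Fact p.Prime] (hp2 : p ≠ 2) {a b c : ℤ}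
    (ha : ¬ (p : ℤ) ∣ a) (hb : ¬ (p : ℤ) ∣ b) (hc : ¬ (p : ℤ) ∣ c) :
    ∃ x y : ℚ_[p], (a : ℚ_[p]) * x ^ 2 + b * y ^ 2 + c = 0 := by
  have hpI : Prime (p : ℤ) := Nat.prime_iff_prime_int.mp hp.out
  have ha' : (a : ZMod p) ≠ 0 := fun h => ha ((ZMod.intCast_zmod_eq_zero_iff_dvd _ _).mp h)
  have hb' : (b : ZMod p) ≠ 0 := fun h => hb ((ZMod.intCast_zmod_eq_zero_iff_dvd _ _).mp h)
  have haQ : (a : ℚ_[p]) ≠ 0 := by
    rw [Int.cast_ne_zero]
    rintro rfl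
    exact ha (dvd_zero _)
  have hbQ : (b : ℚ_[p]) ≠ 0 := by
    rw [Int.cast_ne_zero]
    rintro rfl
    exact hb (dvd_zero _)
  obtain ⟨r, s, hrs⟩ := FiniteField.exists_root_sum_quadratic (R := ZMod p)
    (f := C (a : ZMod p) * X ^ 2 + C 0 * X + C 0)
    (g := C (b : ZMod p) * X ^ 2 + C 0 * X + C (c : ZMod p))
    (degree_quadratic ha') (degree_quadratic hb') (by
      rw [ZMod.card]
      exact Nat.odd_iff.mp (hp.out.odd_of_ne_two hp2))
  simp only [eval_add, eval_mul, eval_C, eval_pow, eval_X, zero_mul, add_zero] at hrs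
  obtain ⟨s, rfl⟩ := ZMod.intCast_surjective s
  by_cases hk : (p : ℤ) ∣ -(a * (b * s ^ 2 + c))
  · -- `b s² + c = 0` modulo `p`
    have h1 : (p : ℤ) ∣ b * s ^ 2 + c := by
      rw [dvd_neg] at hk
      exact (hpI.dvd_or_dvd hk).resolve_left ha
    have h2 : ((b * s ^ 2 + c : ℤ) : ZMod p) = 0 := (ZMod.intCast_zmod_eq_zero_iff_dvd _ _).mpr h1
    push_cast at h2
    have h3 : ¬ (p : ℤ) ∣ -(b * c) := by
      rw [dvd_neg]
      intro h
      rcases hpI.dvd_or_dvd h with h | h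
      · exact hb h
      · exact hc h
    obtain ⟨t, ht⟩ := HN.NoHasse.isSquare_padic hp2 h3 ⟨b * s, by
      push_cast
      linear_combination (-(b : ZMod p)) * h2⟩
    refine ⟨0, t / b, ?_⟩
    push_cast at ht
    field_simp
    linear_combination -ht
  · obtain ⟨t, ht⟩ := HN.NoHasse.isSquare_padic hp2 hk ⟨a * r, by
      push_cast
      linear_combination (-(a : ZMod p)) * hrs⟩
    refine ⟨t / a, s, ?_⟩
    push_cast at ht
    field_simp
    linear_combination -ht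

/-- `x² + 2 y² + 3 z²` over `ℚ_2`. -/
theorem rat123_two {n : ℕ} (hn : n ≠ 0) (h : ∀ a b : ℕ, n ≠ 4 ^ a * (16 * b + 10)) :
    ∃ x y z : ℚ_[2], x ^ 2 + 2 * y ^ 2 + 3 * z ^ 2 = n := by
  obtain ⟨e, m, hm, rfl⟩ := Nat.exists_eq_pow_mul_and_not_dvd hn 4 (by norm_num)
  suffices hs : ∃ x y z : ℚ_[2], x ^ 2 + 2 * y ^ 2 + 3 * z ^ 2 = m by
    obtain ⟨x, y, z, hxyz⟩ := hs
    refine ⟨2 ^ e * x, 2 ^ e * y, 2 ^ e * z, ?_⟩
    have h4 : ((4 : ℚ_[2]) ^ e) = 2 ^ e * 2 ^ e := by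
      rw [← mul_pow]
      norm_num
    push_cast
    rw [h4, ← hxyz]
    ring
  by_cases hm2 : m % 2 = 1
  · have h0 : m % 8 = 1 ∨ m % 8 = 3 ∨ m % 8 = 5 ∨ m % 8 = 7 := by omega
    obtain ⟨s, hs⟩ := exists_sq_of_mod rfl h0
    rcases h0 with h1 | h1 | h1 | h1 <;> rw [h1] at hs <;> push_cast at hs
    · exact ⟨s, 0, 0, by rw [hs]; ring⟩
    · exact ⟨0, 0, s, by rw [hs]; ring⟩
    · exact ⟨0, s, s, by rw [hs]; ring⟩
    · exact ⟨2 * s, 0, s, by rw [hs]; ring⟩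
  · obtain ⟨m', rfl⟩ : ∃ m', m = 2 * m' := ⟨m / 2, by omega⟩
    have h5 : m' % 8 ≠ 5 := by
      intro h5
      apply h e (m' / 8)
      congr 1
      omega
    have h0 : m' % 8 = 1 ∨ m' % 8 = 3 ∨ m' % 8 = 5 ∨ m' % 8 = 7 := by omega
    obtain ⟨s, hs⟩ := exists_sq_of_mod rfl h0
    push_cast
    rcases h0 with h1 | h1 | h1 | h1 <;> rw [h1] at hs <;> push_cast at hs
    · exact ⟨0, s, 0, by rw [hs]; ring⟩
    · exact ⟨s, s, s, by rw [hs]; ring⟩
    · exact absurd h1 h5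
    · exact ⟨3 * s, s, s, by rw [hs]; ring⟩

/-- Global from local representations by a positive ternary form. -/
theorem rat_of_local {a b c : ℤ} (ha : 0 < a) (hb : 0 < b) (hc : 0 < c) {n : ℕ} (hn : n ≠ 0)
    (h : ∀ (p : ℕ) [Fact p.Prime], ∃ x y z w : ℚ_[p], (x ≠ 0 ∨ y ≠ 0 ∨ z ≠ 0 ∨ w ≠ 0) ∧
      (a : ℚ_[p]) * x ^ 2 + b * y ^ 2 + c * z ^ 2 = n * w ^ 2) :
    ∃ x y z : ℚ, (a : ℚ) * x ^ 2 + b * y ^ 2 + c * z ^ 2 = n := by
  have hHM := HM.hasse_minkowski_rat_diag (n := 4) ![(a : ℚ), b, c, -n]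
  have hreal : ∃ x : Fin 4 → ℝ, x ≠ 0 ∧
      ∑ i, ((![(a : ℚ), b, c, -n] : Fin 4 → ℚ) i : ℝ) * x i ^ 2 = 0 := by
    have haR : (0 : ℝ) < a := by exact_mod_cast ha
    refine ⟨![√(n / a), 0, 0, 1], fun h0 => ?_, ?_⟩
    · have := congrFun h0 3
      simp at this
    · simp only [Fin.sum_univ_four, Matrix.cons_val_zero, Matrix.cons_val_one, Matrix.cons_val]
      push_cast
      rw [Real.sq_sqrt (by positivity)]
      field_simp
      ring
  have hloc : ∀ (p : ℕ) [Fact p.Prime], ∃ x : Fin 4 → ℚ_[p], x ≠ 0 ∧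
      ∑ i, ((![(a : ℚ), b, c, -n] : Fin 4 → ℚ) i : ℚ_[p]) * x i ^ 2 = 0 := by
    intro p _
    obtain ⟨x, y, z, w, h0, hxyz⟩ := h p
    refine ⟨![x, y, z, w], fun h1 => ?_, ?_⟩
    · have e0 := congrFun h1 0
      have e1 := congrFun h1 1
      have e2 := congrFun h1 2
      have e3 := congrFun h1 3
      simp at e0 e1 e2 e3
      rcases h0 with h | h | h | h <;> exact h (by assumption)
    · simp only [Fin.sum_univ_four, Matrix.cons_val_zero, Matrix.cons_val_one, Matrix.cons_val]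
      push_cast
      linear_combination hxyz
  obtain ⟨v, hv0, hv⟩ := hHM.mpr ⟨hreal, hloc⟩
  simp only [Fin.sum_univ_four, Matrix.cons_val_zero, Matrix.cons_val_one, Matrix.cons_val] at hv
  have haQ : (0 : ℚ) < a := by exact_mod_cast ha
  have hbQ : (0 : ℚ) < b := by exact_mod_cast hb
  have hcQ : (0 : ℚ) < c := by exact_mod_cast hc
  have hw : v 3 ≠ 0 := by
    intro hw
    rw [hw] at hv
    apply hv0
    have h0 : (a : ℚ) * v 0 ^ 2 = 0 ∧ (b : ℚ) * v 1 ^ 2 = 0 ∧ (c : ℚ) * v 2 ^ 2 = 0 := by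
      have e0 := mul_nonneg haQ.le (sq_nonneg (v 0))
      have e1 := mul_nonneg hbQ.le (sq_nonneg (v 1))
      have e2 := mul_nonneg hcQ.le (sq_nonneg (v 2))
      refine ⟨?_, ?_, ?_⟩ <;> nlinarith
    funext j
    fin_cases j
    · simpa [haQ.ne'] using h0.1
    · simpa [hbQ.ne'] using h0.2.1
    · simpa [hcQ.ne'] using h0.2.2
    · exact hw
  refine ⟨v 0 / v 3, v 1 / v 3, v 2 / v 3, ?_⟩
  field_simp
  linear_combination hv

theorem neg_two_mod_three : ((-2 : ℤ) : ZMod 3) = 1 * 1 := by decide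

/-- **(B2)** The form `x² + 2 y² + 3 z²` represents over `ℚ` all natural numbers which are not
`4 ^ a (16 b + 10)`. -/
theorem rat123 (n : ℕ) (h : ∀ a b : ℕ, n ≠ 4 ^ a * (16 * b + 10)) :
    ∃ x y z : ℚ, x ^ 2 + 2 * y ^ 2 + 3 * z ^ 2 = n := by
  by_cases hn : n = 0
  · exact ⟨0, 0, 0, by rw [hn]; norm_num⟩
  have key := rat_of_local (a := 1) (b := 2) (c := 3) one_pos two_pos three_pos hn (by
    intro p hp
    by_cases hp2 : p = 2
    · subst hp2
      obtain ⟨x, y, z, hxyz⟩ := rat123_two hn h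
      exact ⟨x, y, z, 1, Or.inr (Or.inr (Or.inr one_ne_zero)), by
        push_cast
        rw [one_pow, mul_one, ← hxyz]
        ring⟩
    by_cases hp3 : p = 3
    · subst hp3
      obtain ⟨t, ht⟩ := HN.NoHasse.isSquare_padic (p := 3) (k := -2) (by norm_num) (by norm_num)
        ⟨1, neg_two_mod_three⟩
      exact ⟨t, 1, 0, 0, Or.inr (Or.inl one_ne_zero), by
        push_cast at ht ⊢
        linear_combination -ht⟩
    · have hd : ∀ k : ℕ, k.Prime → p ≠ k → ¬ (p : ℤ) ∣ (k : ℤ) := fun k hk hpk hdv =>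
        hpk ((Nat.prime_dvd_prime_iff_eq hp.out hk).mp (by exact_mod_cast hdv))
      obtain ⟨x, y, hxy⟩ := exists_isotropic_of_units (p := p) hp2 (a := 1) (b := 2) (c := 3)
        (fun h1 => hp.out.one_lt.ne' (by
          have := Int.eq_one_of_dvd_one (by positivity) h1
          exact_mod_cast this)) (by exact_mod_cast hd 2 Nat.prime_two hp2)
        (by exact_mod_cast hd 3 Nat.prime_three hp3)
      exact ⟨x, y, 1, 0, Or.inr (Or.inr (Or.inl one_ne_zero)), by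
        push_cast at hxy ⊢
        linear_combination hxy⟩)
  obtain ⟨x, y, z, hxyz⟩ := key
  exact ⟨x, y, z, by
    push_cast at hxyz
    linear_combination hxyz⟩

end Fermat.Agent.Cor.Ram
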