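import Fermat.Agent.Corollaries.Ram.Rat123

/-!
# The rational numbers represented by `x² + 2 y² + 5 z²`
-/

set_option autoImplicit false

namespace Fermat.Agent.Cor.Ram

theorem one_mod_five : ((1 : ℤ) : ZMod 5) = 1 * 1 := by decide

theorem four_mod_five : ((4 : ℤ) : ZMod 5) = 2 * 2 := by decide

/-- `x² + 2 y² + 5 z²` over `ℚ_5`. -/
theorem rat125_five [Fact (Nat.Prime 5)] {n : ℕ} (hn : n ≠ 0)
    (h1 : ∀ a b : ℕ, n ≠ 25 ^ a * (25 * b + 10)) (h2 : ∀ a b : ℕ, n ≠ 25 ^ a * (25 * b + 15)) :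
    ∃ x y z : ℚ_[5], x ^ 2 + 2 * y ^ 2 + 5 * z ^ 2 = n := by
  obtain ⟨e, m, hm, rfl⟩ := Nat.exists_eq_pow_mul_and_not_dvd hn 25 (by norm_num)
  suffices hs : ∃ x y z : ℚ_[5], x ^ 2 + 2 * y ^ 2 + 5 * z ^ 2 = m by
    obtain ⟨x, y, z, hxyz⟩ := hs
    refine ⟨5 ^ e * x, 5 ^ e * y, 5 ^ e * z, ?_⟩
    have h4 : ((25 : ℚ_[5]) ^ e) = 5 ^ e * 5 ^ e := by
      rw [← mul_pow]
      norm_num
    push_cast
    rw [h4, ← hxyz]
    ring
  by_cases hm5 : 5 ∣ m
  · obtain ⟨m', rfl⟩ := hm5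
    have h0 : m' % 5 = 1 ∨ m' % 5 = 4 := by
      have e2 : m' % 5 ≠ 2 := by
        intro h
        apply h1 e (m' / 5)
        congr 1
        omega
      have e3 : m' % 5 ≠ 3 := by
        intro h
        apply h2 e (m' / 5)
        congr 1
        omega
      omega
    have hk : ¬ ((5 : ℕ) : ℤ) ∣ (m' : ℤ) := by omega
    obtain ⟨t, ht⟩ := HN.NoHasse.isSquare_padic (p := 5) (k := (m' : ℤ)) (by norm_num) hk (by
      rcases h0 with h | h
      · refine ⟨1, ?_⟩
        rw [← one_mod_five]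
        rw [ZMod.intCast_eq_intCast_iff_dvd_sub]
        push_cast
        omega
      · refine ⟨2, ?_⟩
        rw [← four_mod_five]
        rw [ZMod.intCast_eq_intCast_iff_dvd_sub]
        push_cast
        omega)
    refine ⟨0, 0, t, ?_⟩
    push_cast at ht ⊢
    linear_combination (-5) * ht
  · obtain ⟨x, y, hxy⟩ := exists_isotropic_of_units (p := 5) (by norm_num) (a := 1) (b := 2)
      (c := -(m : ℤ)) (by norm_num) (by norm_num) (by omega)
    refine ⟨x, y, 0, ?_⟩
    push_cast at hxy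
    linear_combination hxy

/-- **(B3)** The form `x² + 2 y² + 5 z²` represents over `ℚ` all natural numbers which are not
`25 ^ a (25 b + 10)` and not `25 ^ a (25 b + 15)`. -/
theorem rat125 (n : ℕ) (h1 : ∀ a b : ℕ, n ≠ 25 ^ a * (25 * b + 10))
    (h2 : ∀ a b : ℕ, n ≠ 25 ^ a * (25 * b + 15)) :
    ∃ x y z : ℚ, x ^ 2 + 2 * y ^ 2 + 5 * z ^ 2 = n := by
  by_cases hn : n = 0
  · exact ⟨0, 0, 0, by rw [hn]; norm_num⟩
  have key := rat_of_local (a := 1) (b := 2) (c := 5) one_pos two_pos (by norm_num) hn (by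
    intro p hp
    by_cases hp2 : p = 2
    · subst hp2
      obtain ⟨t, ht⟩ := isSquare_two_padic (k := -15) (by norm_num)
      have h3 : (3 : ℚ_[2]) ≠ 0 := by norm_num
      exact ⟨t / 3, t / 3, 1, 0, Or.inr (Or.inr (Or.inl one_ne_zero)), by
        push_cast at ht ⊢
        field_simp
        linear_combination (-3) * ht⟩
    by_cases hp5 : p = 5
    · subst hp5
      obtain ⟨x, y, z, hxyz⟩ := rat125_five hn h1 h2
      exact ⟨x, y, z, 1, Or.inr (Or.inr (Or.inr one_ne_zero)), by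
        push_cast
        rw [one_pow, mul_one, ← hxyz]
        ring⟩
    · have hd : ∀ k : ℕ, k.Prime → p ≠ k → ¬ (p : ℤ) ∣ (k : ℤ) := fun k hk hpk hdv =>
        hpk ((Nat.prime_dvd_prime_iff_eq hp.out hk).mp (by exact_mod_cast hdv))
      obtain ⟨x, y, hxy⟩ := exists_isotropic_of_units (p := p) hp2 (a := 1) (b := 2) (c := 5)
        (fun h1 => hp.out.one_lt.ne' (by
          have := Int.eq_one_of_dvd_one (by positivity) h1
          exact_mod_cast this)) (by exact_mod_cast hd 2 Nat.prime_two hp2)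
        (by exact_mod_cast hd 5 (by norm_num) hp5)
      exact ⟨x, y, 1, 0, Or.inr (Or.inr (Or.inl one_ne_zero)), by
        push_cast at hxy ⊢
        linear_combination hxy⟩)
  obtain ⟨x, y, z, hxyz⟩ := key
  exact ⟨x, y, z, by
    push_cast at hxyz
    linear_combination hxyz⟩

end Fermat.Agent.Cor.Ram
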