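import Fermat.Agent.Corollaries.ThreeSq.Forms

/-!
# The ternary forms `x² + 2y² + 2z²` and `x² + 2y² + 4z²`, and the numbers which `x² + y² + 3z²`,
`x² + 2y² + 3z²`, `x² + 2y² + 5z²` do not represent
-/

namespace Fermat.Agent.Cor.Ram

open Fermat.Agent.Cor.ThreeSq

/-- Two of three integers have the same parity. -/
theorem two_of_three {n : ℤ} (h : ∃ x y z : ℤ, x ^ 2 + y ^ 2 + z ^ 2 = n) :
    ∃ x y z : ℤ, x ^ 2 + (y + z) ^ 2 + (y - z) ^ 2 = n := by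
  obtain ⟨A, B, C, h⟩ := h
  have key : ∀ A B C : ℤ, A ^ 2 + B ^ 2 + C ^ 2 = n → (B - C) % 2 = 0 →
      ∃ x y z : ℤ, x ^ 2 + (y + z) ^ 2 + (y - z) ^ 2 = n := by
    intro A B C h hBC
    obtain ⟨z, hz⟩ : ∃ z, B = C + 2 * z := ⟨(B - C) / 2, by omega⟩
    subst hz
    exact ⟨A, C + z, z, by rw [← h]; ring⟩
  rcases Int.emod_two_eq_zero_or_one (B - C) with h1 | h1
  · exact key A B C h h1
  · rcases Int.emod_two_eq_zero_or_one (A - B) with h2 | h2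
    · exact key C A B (by rw [← h]; ring) h2
    · exact key B A C (by rw [← h]; ring) (by omega)

/-- **`x² + 2y² + 2z²`** represents `n` iff `n` is not of the form `4 ^ a (8 b + 7)`. -/
theorem form122_iff {n : ℕ} : (∃ x y z : ℤ, x ^ 2 + 2 * y ^ 2 + 2 * z ^ 2 = (n : ℤ)) ↔
    ∀ a b : ℕ, n ≠ 4 ^ a * (8 * b + 7) := by
  rw [← sum_three_squares_iff]
  constructor
  · rintro ⟨x, y, z, h⟩
    exact ⟨x, y + z, y - z, by rw [← h]; ring⟩
  · intro h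
    obtain ⟨x, y, z, h⟩ := two_of_three h
    exact ⟨x, y, z, by rw [← h]; ring⟩

/-- **`x² + 2y² + 4z²`** represents `n` iff `n` is not of the form `2 · 4 ^ a (8 b + 7)`. -/
theorem form124_iff {n : ℕ} : (∃ x y z : ℤ, x ^ 2 + 2 * y ^ 2 + 4 * z ^ 2 = (n : ℤ)) ↔
    ∀ a b : ℕ, n ≠ 2 * 4 ^ a * (8 * b + 7) := by
  constructor
  · rintro ⟨x, y, z, h⟩
    exact sq_add_sq_add_two_mul_sq_iff.1 ⟨x, 2 * z, y, by rw [← h]; ring⟩
  · intro h
    rcases Nat.even_or_odd' n with ⟨m, rfl | rfl⟩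
    · have h1 : ∃ x y z : ℤ, x ^ 2 + y ^ 2 + z ^ 2 = (m : ℤ) := by
        rw [sum_three_squares_iff]
        intro a b hab
        exact h a b (by rw [hab]; ring)
      obtain ⟨x, y, z, h1⟩ := two_of_three h1
      exact ⟨2 * y, x, z, by push_cast; rw [← h1]; ring⟩
    · obtain ⟨x, y, z, h1⟩ := sq_add_sq_add_two_mul_sq_iff.2 h
      have h2 : (x ^ 2 + y ^ 2) % 2 = 1 := by
        have : x ^ 2 + y ^ 2 = 2 * (m - z ^ 2) + 1 := by push_cast at h1; linarith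
        omega
      rcases Int.even_or_odd' x with ⟨k, hk | hk⟩
      · exact ⟨y, z, k, by rw [← h1, hk]; ring⟩
      · rcases Int.even_or_odd' y with ⟨l, hl | hl⟩
        · exact ⟨x, z, l, by rw [← h1, hl]; ring⟩
        · exfalso
          rw [hk, hl] at h2
          ring_nf at h2
          omega

/-! ### Exceptions of the three other forms -/

theorem not113 (a b : ℕ) : ¬ ∃ x y z : ℤ, x ^ 2 + y ^ 2 + 3 * z ^ 2 = 9 ^ a * (9 * b + 6) := by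
  induction a with
  | zero =>
    rintro ⟨x, y, z, h⟩
    have h1 : ∀ x y z : ZMod 9, x ^ 2 + y ^ 2 + 3 * z ^ 2 ≠ 6 := by decide
    refine h1 x y z ?_
    have h2 := congrArg (Int.cast : ℤ → ZMod 9) h
    push_cast at h2
    rw [h2, show (9 : ZMod 9) = 0 from rfl]
    ring
  | succ a ih =>
    rintro ⟨x, y, z, h⟩
    have h1 : ∀ x y z : ZMod 9, x ^ 2 + y ^ 2 + 3 * z ^ 2 = 0 → 3 * x = 0 ∧ 3 * y = 0 ∧ 3 * z = 0 := by
      decide
    have h2 : ((x : ZMod 9)) ^ 2 + y ^ 2 + 3 * z ^ 2 = 0 := by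
      have h3 := congrArg (Int.cast : ℤ → ZMod 9) h
      push_cast at h3
      rw [h3, pow_succ, show (9 : ZMod 9) = 0 from rfl]
      ring
    obtain ⟨hx, hy, hz⟩ := h1 _ _ _ h2
    have hd : ∀ w : ℤ, (3 : ZMod 9) * w = 0 → ∃ v, w = 3 * v := by
      intro w hw
      have : ((3 * w : ℤ) : ZMod 9) = 0 := by push_cast; exact hw
      rw [ZMod.intCast_zmod_eq_zero_iff_dvd] at this
      exact ⟨w / 3, by push_cast at this; omega⟩
    obtain ⟨x, rfl⟩ := hd x hx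
    obtain ⟨y, rfl⟩ := hd y hy
    obtain ⟨z, rfl⟩ := hd z hz
    refine ih ⟨x, y, z, ?_⟩
    rw [pow_succ (9 : ℤ)] at h
    linarith

theorem not123 (a b : ℕ) :
    ¬ ∃ x y z : ℤ, x ^ 2 + 2 * y ^ 2 + 3 * z ^ 2 = 4 ^ a * (16 * b + 10) := by
  induction a with
  | zero =>
    rintro ⟨x, y, z, h⟩
    have h1 : ∀ x y z : ZMod 16, x ^ 2 + 2 * y ^ 2 + 3 * z ^ 2 ≠ 10 := by decide
    refine h1 x y z ?_
    have h2 := congrArg (Int.cast : ℤ → ZMod 16) h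
    push_cast at h2
    rw [h2, show (16 : ZMod 16) = 0 from rfl]
    ring
  | succ a ih =>
    rintro ⟨x, y, z, h⟩
    have h1 : ∀ x y z : ZMod 8, x ^ 2 + 2 * y ^ 2 + 3 * z ^ 2 = 0 → 4 * x = 0 ∧ 4 * y = 0 ∧ 4 * z = 0 := by
      decide
    have h2 : ((x : ZMod 8)) ^ 2 + 2 * y ^ 2 + 3 * z ^ 2 = 0 := by
      have h3 : x ^ 2 + 2 * y ^ 2 + 3 * z ^ 2 = 8 * (4 ^ a * (8 * b + 5)) := by
        rw [h, pow_succ]; ring
      have h3 := congrArg (Int.cast : ℤ → ZMod 8) h3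
      push_cast at h3
      rw [h3, show (8 : ZMod 8) = 0 from rfl]
      ring
    obtain ⟨hx, hy, hz⟩ := h1 _ _ _ h2
    have hd : ∀ w : ℤ, (4 : ZMod 8) * w = 0 → ∃ v, w = 2 * v := by
      intro w hw
      have : ((4 * w : ℤ) : ZMod 8) = 0 := by push_cast; exact hw
      rw [ZMod.intCast_zmod_eq_zero_iff_dvd] at this
      exact ⟨w / 2, by push_cast at this; omega⟩
    obtain ⟨x, rfl⟩ := hd x hx
    obtain ⟨y, rfl⟩ := hd y hy
    obtain ⟨z, rfl⟩ := hd z hz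
    refine ih ⟨x, y, z, ?_⟩
    rw [pow_succ (4 : ℤ)] at h
    linarith

theorem not125 {r : ℤ} (hr : r = 10 ∨ r = 15) (a b : ℕ) :
    ¬ ∃ x y z : ℤ, x ^ 2 + 2 * y ^ 2 + 5 * z ^ 2 = 25 ^ a * (25 * b + r) := by
  have hd : ∀ w : ℤ, (5 : ZMod 25) * w = 0 → ∃ v, w = 5 * v := by
    intro w hw
    have : ((5 * w : ℤ) : ZMod 25) = 0 := by push_cast; exact hw
    rw [ZMod.intCast_zmod_eq_zero_iff_dvd] at this
    exact ⟨w / 5, by push_cast at this; omega⟩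
  have h5 : ∀ x y : ZMod 5, x ^ 2 + 2 * y ^ 2 = 0 → x = 0 ∧ y = 0 := by decide
  have hxy : ∀ x y z m : ℤ, x ^ 2 + 2 * y ^ 2 + 5 * z ^ 2 = 5 * m →
      ∃ x' y', x = 5 * x' ∧ y = 5 * y' := by
    intro x y z m h
    have h1 : ((x : ZMod 5)) ^ 2 + 2 * y ^ 2 = 0 := by
      have h3 : x ^ 2 + 2 * y ^ 2 = 5 * (m - z ^ 2) := by linarith
      have h3 := congrArg (Int.cast : ℤ → ZMod 5) h3
      push_cast at h3
      rw [h3, show (5 : ZMod 5) = 0 from rfl]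
      ring
    obtain ⟨hx, hy⟩ := h5 _ _ h1
    rw [ZMod.intCast_zmod_eq_zero_iff_dvd] at hx hy
    obtain ⟨x', hx'⟩ := hx
    obtain ⟨y', hy'⟩ := hy
    exact ⟨x', y', by exact_mod_cast hx', by exact_mod_cast hy'⟩
  induction a with
  | zero =>
    rintro ⟨x, y, z, h⟩
    obtain ⟨s, hs⟩ : ∃ s : ℤ, r = 5 * s ∧ (s = 2 ∨ s = 3) := by
      rcases hr with rfl | rfl
      exacts [⟨2, rfl, Or.inl rfl⟩, ⟨3, rfl, Or.inr rfl⟩]
    obtain ⟨x, y, rfl, rfl⟩ := hxy x y z (5 * b + s) (by rw [h, hs.1]; ring)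
    have h1 : z ^ 2 = 5 * (b - x ^ 2 - 2 * y ^ 2) + s := by
      rw [hs.1] at h; linarith
    have h2 := congrArg (Int.cast : ℤ → ZMod 5) h1
    push_cast at h2
    rw [show (5 : ZMod 5) = 0 from rfl, zero_mul, zero_add] at h2
    have h3 : ∀ z : ZMod 5, z ^ 2 ≠ 2 ∧ z ^ 2 ≠ 3 := by decide
    rcases hs.2 with rfl | rfl
    · exact (h3 z).1 (by exact_mod_cast h2)
    · exact (h3 z).2 (by exact_mod_cast h2)
  | succ a ih =>
    rintro ⟨x, y, z, h⟩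
    obtain ⟨x, y, rfl, rfl⟩ := hxy x y z (5 * (25 ^ a * (25 * b + r))) (by rw [h, pow_succ]; ring)
    have h1 : z ^ 2 = 5 * (25 ^ a * (25 * b + r) - x ^ 2 - 2 * y ^ 2) := by
      rw [pow_succ (25 : ℤ)] at h; linarith
    have h2 : (5 : ℤ) ∣ z := by
      have : (5 : ℤ) ∣ z ^ 2 := ⟨_, h1⟩
      exact (Int.prime_iff_natAbs_prime.mpr (by norm_num)).dvd_of_dvd_pow this
    obtain ⟨z, rfl⟩ := h2
    refine ih ⟨x, y, z, ?_⟩
    rw [pow_succ (25 : ℤ)] at h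
    linarith

end Fermat.Agent.Cor.Ram
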