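import Fermat.Agent.Corollaries.Ram.Euclid
import Fermat.Agent.Corollaries.Ram.Ternary
import Fermat.Agent.Corollaries.Ram.Need
import Fermat.Agent.Corollaries.Ram.Rat113
import Fermat.Agent.Corollaries.Ram.Rat123
import Fermat.Agent.Corollaries.Ram.Rat125

/-!
# Ramanujan's theorem: the 54 universal diagonal quaternary forms
-/

namespace Fermat.Agent.Cor.Ram

open Fermat.Agent.Cor.ThreeSq

/-! ### The three regular forms -/

/-- **`x² + y² + 3z²`** represents `n` iff `n` is not of the form `9 ^ a (9 b + 6)`. -/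
theorem form113_iff {n : ℕ} : (∃ x y z : ℤ, x ^ 2 + y ^ 2 + 3 * z ^ 2 = (n : ℤ)) ↔
    ∀ a b : ℕ, n ≠ 9 ^ a * (9 * b + 6) := by
  constructor
  · rintro h a b rfl
    push_cast at h
    exact not113 a b h
  · intro h
    exact int113 n (by simpa using rat113 n h)

/-- **`x² + 2y² + 3z²`** represents `n` iff `n` is not of the form `4 ^ a (16 b + 10)`. -/
theorem form123_iff {n : ℕ} : (∃ x y z : ℤ, x ^ 2 + 2 * y ^ 2 + 3 * z ^ 2 = (n : ℤ)) ↔
    ∀ a b : ℕ, n ≠ 4 ^ a * (16 * b + 10) := by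
  constructor
  · rintro h a b rfl
    push_cast at h
    exact not123 a b h
  · intro h
    exact int123 n (by simpa using rat123 n h)

/-- **`x² + 2y² + 5z²`** represents `n` iff `n` is not of the form `25 ^ a (25 b + 10)` or
`25 ^ a (25 b + 15)`. -/
theorem form125_iff {n : ℕ} : (∃ x y z : ℤ, x ^ 2 + 2 * y ^ 2 + 5 * z ^ 2 = (n : ℤ)) ↔
    ∀ a b : ℕ, n ≠ 25 ^ a * (25 * b + 10) ∧ n ≠ 25 ^ a * (25 * b + 15) := by
  constructor
  · intro h a b
    constructor
    · rintro rfl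
      push_cast at h
      exact not125 (Or.inl rfl) a b h
    · rintro rfl
      push_cast at h
      exact not125 (Or.inr rfl) a b h
  · intro h
    exact int125 n (by simpa using rat125 n (fun a b => (h a b).1) fun a b => (h a b).2)

/-! ### Sufficient congruences -/

theorem good112 {k : ℕ} (h8 : k % 8 ≠ 0) (h16 : k % 16 ≠ 14) :
    ∃ x y z : ℤ, x ^ 2 + y ^ 2 + 2 * z ^ 2 = (k : ℤ) := by
  refine sq_add_sq_add_two_mul_sq_iff.2 fun a b hab => ?_
  rcases a with _ | a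
  · omega
  · have : k = 8 * (4 ^ a * (8 * b + 7)) := by rw [hab, pow_succ]; ring
    omega

theorem good122 {k : ℕ} (h4 : k % 4 ≠ 0) (h8 : k % 8 ≠ 7) :
    ∃ x y z : ℤ, x ^ 2 + 2 * y ^ 2 + 2 * z ^ 2 = (k : ℤ) := by
  refine form122_iff.2 fun a b hab => ?_
  rcases a with _ | a
  · omega
  · have : k = 4 * (4 ^ a * (8 * b + 7)) := by rw [hab, pow_succ]; ring
    omega

theorem good124 {k : ℕ} (h8 : k % 8 ≠ 0) (h16 : k % 16 ≠ 14) :
    ∃ x y z : ℤ, x ^ 2 + 2 * y ^ 2 + 4 * z ^ 2 = (k : ℤ) := by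
  refine form124_iff.2 fun a b hab => ?_
  rcases a with _ | a
  · omega
  · have : k = 8 * (4 ^ a * (8 * b + 7)) := by rw [hab, pow_succ]; ring
    omega

theorem good113 {k : ℕ} (h9 : k % 9 ≠ 0) (h6 : k % 9 ≠ 6) :
    ∃ x y z : ℤ, x ^ 2 + y ^ 2 + 3 * z ^ 2 = (k : ℤ) := by
  refine form113_iff.2 fun a b hab => ?_
  rcases a with _ | a
  · omega
  · have : k = 9 * (9 ^ a * (9 * b + 6)) := by rw [hab, pow_succ]; ring
    omega

theorem good123 {k : ℕ} (h8 : k % 8 ≠ 0) (h16 : k % 16 ≠ 10) :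
    ∃ x y z : ℤ, x ^ 2 + 2 * y ^ 2 + 3 * z ^ 2 = (k : ℤ) := by
  refine form123_iff.2 fun a b hab => ?_
  rcases a with _ | a
  · omega
  · have : k = 8 * (4 ^ a * (8 * b + 5)) := by rw [hab, pow_succ]; ring
    omega

theorem good125 {k : ℕ} (h0 : k % 25 ≠ 0) (h10 : k % 25 ≠ 10) (h15 : k % 25 ≠ 15) :
    ∃ x y z : ℤ, x ^ 2 + 2 * y ^ 2 + 5 * z ^ 2 = (k : ℤ) := by
  refine form125_iff.2 fun a b => ⟨fun hab => ?_, fun hab => ?_⟩
  · rcases a with _ | a
    · omega
    · have : k = 25 * (25 ^ a * (25 * b + 10)) := by rw [hab, pow_succ]; ring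
      omega
  · rcases a with _ | a
    · omega
    · have : k = 25 * (25 ^ a * (25 * b + 15)) := by rw [hab, pow_succ]; ring
      omega

/-- `n` is a value of the diagonal form. -/
def Val (a b c d n : ℕ) : Prop :=
  ∃ x y z w : ℤ, (a : ℤ) * x ^ 2 + b * y ^ 2 + c * z ^ 2 + d * w ^ 2 = n

theorem Val.step {a b c d n k : ℕ} (w : ℤ) (h : ∃ x y z : ℤ, (a : ℤ) * x ^ 2 + b * y ^ 2 +
    c * z ^ 2 = k) (hk : (k : ℤ) + d * w ^ 2 = n) : Val a b c d n := by
  obtain ⟨x, y, z, h⟩ := h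
  exact ⟨x, y, z, w, by rw [h, hk]⟩

/-- Multiples of a square. -/
theorem universal_of {a b c d m : ℕ} (hm : 2 ≤ m)
    (h : ∀ n : ℕ, n % m ^ 2 ≠ 0 → Val a b c d n) (n : ℕ) : Val a b c d n := by
  induction n using Nat.strong_induction_on with
  | _ n ih =>
  by_cases h0 : n % m ^ 2 = 0
  · rcases Nat.eq_zero_or_pos n with rfl | hn
    · exact ⟨0, 0, 0, 0, by simp⟩
    · obtain ⟨k, rfl⟩ := Nat.dvd_of_mod_eq_zero h0
      have hk : k < m ^ 2 * k := by
        have h1 : 0 < k := Nat.pos_of_ne_zero (by rintro rfl; simp at hn)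
        have h2 : 2 ^ 2 ≤ m ^ 2 := Nat.pow_le_pow_left hm 2
        nlinarith
      obtain ⟨x, y, z, w, hx⟩ := ih k hk
      refine ⟨m * x, m * y, m * z, m * w, ?_⟩
      push_cast
      rw [← hx]
      ring
  · exact h n h0

theorem univ111 {d : ℕ} (h1 : 1 ≤ d) (h2 : d ≤ 7) (n : ℕ) : Val 1 1 1 d n := by
  obtain ⟨x, y, z, w, h⟩ := ThreeSq.universal_iff.2 ⟨h1, h2⟩ n
  exact ⟨x, y, z, w, by rw [← h]; push_cast; ring⟩

theorem univ112 {d : ℕ} (h1 : 2 ≤ d) (h2 : d ≤ 14) : ∀ n : ℕ, Val 1 1 2 d n := by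
  refine universal_of (le_refl 2) fun n h4 => ?_
  have step : ∀ (k : ℕ) (w : ℤ), (k : ℤ) + d * w ^ 2 = n → k % 8 ≠ 0 → k % 16 ≠ 14 →
      Val 1 1 2 d n := by
    intro k w hk h8 h16
    exact Val.step w (by simpa using good112 h8 h16) hk
  by_cases h16 : n % 16 = 14
  swap
  · exact step n 0 (by ring) (by omega) h16
  obtain ⟨b, rfl⟩ : ∃ b, n = 16 * b + 14 := ⟨n / 16, by omega⟩
  interval_cases d
  · exact step (16 * b + 12) 1 (by push_cast; ring) (by omega) (by omega)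
  · exact step (16 * b + 11) 1 (by push_cast; ring) (by omega) (by omega)
  · exact step (16 * b + 10) 1 (by push_cast; ring) (by omega) (by omega)
  · exact step (16 * b + 9) 1 (by push_cast; ring) (by omega) (by omega)
  · rcases b with _ | b
    · exact ⟨2, 2, 0, 1, by norm_num⟩
    · exact step (16 * b + 6) 2 (by push_cast; ring) (by omega) (by omega)
  · exact step (16 * b + 7) 1 (by push_cast; ring) (by omega) (by omega)
  · exact step (16 * b + 6) 1 (by push_cast; ring) (by omega) (by omega)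
  · exact step (16 * b + 5) 1 (by push_cast; ring) (by omega) (by omega)
  · exact step (16 * b + 4) 1 (by push_cast; ring) (by omega) (by omega)
  · exact step (16 * b + 3) 1 (by push_cast; ring) (by omega) (by omega)
  · exact step (16 * b + 2) 1 (by push_cast; ring) (by omega) (by omega)
  · exact step (16 * b + 1) 1 (by push_cast; ring) (by omega) (by omega)
  · rcases b with _ | _ | _ | b
    · exact ⟨0, 0, 0, 1, by norm_num⟩
    · exact ⟨4, 0, 0, 1, by norm_num⟩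
    · exact ⟨4, 4, 0, 1, by norm_num⟩
    · exact step (16 * b + 6) 2 (by push_cast; ring) (by omega) (by omega)

theorem univ122 {d : ℕ} (h1 : 2 ≤ d) (h2 : d ≤ 7) : ∀ n : ℕ, Val 1 2 2 d n := by
  refine universal_of (le_refl 2) fun n h4 => ?_
  have step : ∀ (k : ℕ) (w : ℤ), (k : ℤ) + d * w ^ 2 = n → k % 4 ≠ 0 → k % 8 ≠ 7 →
      Val 1 2 2 d n := by
    intro k w hk h8 h16
    exact Val.step w (by simpa using good122 h8 h16) hk
  by_cases h8 : n % 8 = 7
  swap
  · exact step n 0 (by ring) (by omega) h8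
  obtain ⟨b, rfl⟩ : ∃ b, n = 8 * b + 7 := ⟨n / 8, by omega⟩
  interval_cases d
  · exact step (8 * b + 5) 1 (by push_cast; ring) (by omega) (by omega)
  · rcases b with _ | b
    · exact ⟨2, 0, 0, 1, by norm_num⟩
    · exact step (8 * b + 3) 2 (by push_cast; ring) (by omega) (by omega)
  · exact step (8 * b + 3) 1 (by push_cast; ring) (by omega) (by omega)
  · exact step (8 * b + 2) 1 (by push_cast; ring) (by omega) (by omega)
  · exact step (8 * b + 1) 1 (by push_cast; ring) (by omega) (by omega)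
  · rcases b with _ | _ | _ | b
    · exact ⟨0, 0, 0, 1, by norm_num⟩
    · exact ⟨0, 2, 0, 1, by norm_num⟩
    · exact ⟨4, 0, 0, 1, by norm_num⟩
    · exact step (8 * b + 3) 2 (by push_cast; ring) (by omega) (by omega)

theorem univ124 {d : ℕ} (h1 : 4 ≤ d) (h2 : d ≤ 14) : ∀ n : ℕ, Val 1 2 4 d n := by
  refine universal_of (le_refl 2) fun n h4 => ?_
  have step : ∀ (k : ℕ) (w : ℤ), (k : ℤ) + d * w ^ 2 = n → k % 8 ≠ 0 → k % 16 ≠ 14 →
      Val 1 2 4 d n := by
    intro k w hk h8 h16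
    exact Val.step w (by simpa using good124 h8 h16) hk
  by_cases h16 : n % 16 = 14
  swap
  · exact step n 0 (by ring) (by omega) h16
  obtain ⟨b, rfl⟩ : ∃ b, n = 16 * b + 14 := ⟨n / 16, by omega⟩
  interval_cases d
  · exact step (16 * b + 10) 1 (by push_cast; ring) (by omega) (by omega)
  · exact step (16 * b + 9) 1 (by push_cast; ring) (by omega) (by omega)
  · rcases b with _ | b
    · exact ⟨0, 2, 0, 1, by norm_num⟩
    · exact step (16 * b + 6) 2 (by push_cast; ring) (by omega) (by omega)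
  · exact step (16 * b + 7) 1 (by push_cast; ring) (by omega) (by omega)
  · exact step (16 * b + 6) 1 (by push_cast; ring) (by omega) (by omega)
  · exact step (16 * b + 5) 1 (by push_cast; ring) (by omega) (by omega)
  · exact step (16 * b + 4) 1 (by push_cast; ring) (by omega) (by omega)
  · exact step (16 * b + 3) 1 (by push_cast; ring) (by omega) (by omega)
  · exact step (16 * b + 2) 1 (by push_cast; ring) (by omega) (by omega)
  · exact step (16 * b + 1) 1 (by push_cast; ring) (by omega) (by omega)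
  · rcases b with _ | _ | _ | b
    · exact ⟨0, 0, 0, 1, by norm_num⟩
    · exact ⟨4, 0, 0, 1, by norm_num⟩
    · exact ⟨0, 4, 0, 1, by norm_num⟩
    · exact step (16 * b + 6) 2 (by push_cast; ring) (by omega) (by omega)

theorem univ113 {d : ℕ} (h1 : 3 ≤ d) (h2 : d ≤ 6) : ∀ n : ℕ, Val 1 1 3 d n := by
  refine universal_of (show 2 ≤ 3 by norm_num) fun n h9 => ?_
  have step : ∀ (k : ℕ) (w : ℤ), (k : ℤ) + d * w ^ 2 = n → k % 9 ≠ 0 → k % 9 ≠ 6 →
      Val 1 1 3 d n := by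
    intro k w hk h8 h16
    exact Val.step w (by simpa using good113 h8 h16) hk
  by_cases h6 : n % 9 = 6
  swap
  · exact step n 0 (by ring) (by omega) h6
  obtain ⟨b, rfl⟩ : ∃ b, n = 9 * b + 6 := ⟨n / 9, by omega⟩
  interval_cases d
  · exact step (9 * b + 3) 1 (by push_cast; ring) (by omega) (by omega)
  · exact step (9 * b + 2) 1 (by push_cast; ring) (by omega) (by omega)
  · exact step (9 * b + 1) 1 (by push_cast; ring) (by omega) (by omega)
  · by_cases h3 : b % 3 = 0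
    · rcases Nat.eq_zero_or_pos b with rfl | hb
      · exact ⟨0, 0, 0, 1, by norm_num⟩
      · obtain ⟨c, rfl⟩ : ∃ c, b = c + 2 := ⟨b - 2, by omega⟩
        obtain ⟨x, y, z, h⟩ := good113 (k := c) (by omega) (by omega)
        exact ⟨3 * x, 3 * y, 3 * z, 2, by push_cast; rw [← h]; ring⟩
    · obtain ⟨x, y, z, h⟩ := good113 (k := b) (by omega) (by omega)
      exact ⟨3 * x, 3 * y, 3 * z, 1, by push_cast; rw [← h]; ring⟩

theorem univ123 {d : ℕ} (h1 : 3 ≤ d) (h2 : d ≤ 10) : ∀ n : ℕ, Val 1 2 3 d n := by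
  refine universal_of (le_refl 2) fun n h4 => ?_
  have step : ∀ (k : ℕ) (w : ℤ), (k : ℤ) + d * w ^ 2 = n → k % 8 ≠ 0 → k % 16 ≠ 10 →
      Val 1 2 3 d n := by
    intro k w hk h8 h16
    exact Val.step w (by simpa using good123 h8 h16) hk
  by_cases h16 : n % 16 = 10
  swap
  · exact step n 0 (by ring) (by omega) h16
  obtain ⟨b, rfl⟩ : ∃ b, n = 16 * b + 10 := ⟨n / 16, by omega⟩
  interval_cases d
  · exact step (16 * b + 7) 1 (by push_cast; ring) (by omega) (by omega)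
  · exact step (16 * b + 6) 1 (by push_cast; ring) (by omega) (by omega)
  · exact step (16 * b + 5) 1 (by push_cast; ring) (by omega) (by omega)
  · exact step (16 * b + 4) 1 (by push_cast; ring) (by omega) (by omega)
  · exact step (16 * b + 3) 1 (by push_cast; ring) (by omega) (by omega)
  · exact step (16 * b + 2) 1 (by push_cast; ring) (by omega) (by omega)
  · exact step (16 * b + 1) 1 (by push_cast; ring) (by omega) (by omega)
  · rcases b with _ | _ | b
    · exact ⟨0, 0, 0, 1, by norm_num⟩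
    · exact ⟨4, 0, 0, 1, by norm_num⟩
    · exact step (16 * b + 2) 2 (by push_cast; ring) (by omega) (by omega)

theorem univ125 {d : ℕ} (h1 : 6 ≤ d) (h2 : d ≤ 10) : ∀ n : ℕ, Val 1 2 5 d n := by
  refine universal_of (show 2 ≤ 5 by norm_num) fun n h25 => ?_
  have step : ∀ (k : ℕ) (w : ℤ), (k : ℤ) + d * w ^ 2 = n → k % 25 ≠ 0 → k % 25 ≠ 10 →
      k % 25 ≠ 15 → Val 1 2 5 d n := by
    intro k w hk h8 h16 h17
    exact Val.step w (by simpa using good125 h8 h16 h17) hk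
  by_cases h10 : n % 25 = 10
  · obtain ⟨b, rfl⟩ : ∃ b, n = 25 * b + 10 := ⟨n / 25, by omega⟩
    interval_cases d
    · exact step (25 * b + 4) 1 (by push_cast; ring) (by omega) (by omega) (by omega)
    · exact step (25 * b + 3) 1 (by push_cast; ring) (by omega) (by omega) (by omega)
    · exact step (25 * b + 2) 1 (by push_cast; ring) (by omega) (by omega) (by omega)
    · exact step (25 * b + 1) 1 (by push_cast; ring) (by omega) (by omega) (by omega)
    · rcases b with _ | _ | b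
      · exact ⟨0, 0, 0, 1, by norm_num⟩
      · exact ⟨5, 0, 0, 1, by norm_num⟩
      · exact step (25 * b + 20) 2 (by push_cast; ring) (by omega) (by omega) (by omega)
  by_cases h15 : n % 25 = 15
  · obtain ⟨b, rfl⟩ : ∃ b, n = 25 * b + 15 := ⟨n / 25, by omega⟩
    interval_cases d
    · exact step (25 * b + 9) 1 (by push_cast; ring) (by omega) (by omega) (by omega)
    · exact step (25 * b + 8) 1 (by push_cast; ring) (by omega) (by omega) (by omega)
    · exact step (25 * b + 7) 1 (by push_cast; ring) (by omega) (by omega) (by omega)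
    · exact step (25 * b + 6) 1 (by push_cast; ring) (by omega) (by omega) (by omega)
    · exact step (25 * b + 5) 1 (by push_cast; ring) (by omega) (by omega) (by omega)
  · exact step n 0 (by ring) (by omega) h10 h15

/-- The 54 forms are universal. -/
theorem IsRam.universal {a b c d : ℕ} (h : IsRam a b c d) (n : ℕ) : Val a b c d n := by
  rcases h with ⟨rfl, rfl, rfl, h1, h2⟩ | ⟨rfl, rfl, rfl, h1, h2⟩ | ⟨rfl, rfl, rfl, h1, h2⟩ |
    ⟨rfl, rfl, rfl, h1, h2⟩ | ⟨rfl, rfl, rfl, h1, h2⟩ | ⟨rfl, rfl, rfl, h1, h2⟩ |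
    ⟨rfl, rfl, rfl, h1, h2⟩
  · exact univ111 h1 h2 n
  · exact univ112 h1 h2 n
  · exact univ113 h1 h2 n
  · exact univ122 h1 h2 n
  · exact univ123 h1 h2 n
  · exact univ124 h1 h2 n
  · exact univ125 h1 h2 n

/-- **Ramanujan's theorem** (1917; Dickson 1927): let `1 ≤ a ≤ b ≤ c ≤ d`. The form
`a x² + b y² + c z² + d w²` represents every natural number if and only if `(a, b, c, d)` is one of
the 54 quadruples `1,1,1,1-7`, `1,1,2,2-14`, `1,1,3,3-6`, `1,2,2,2-7`, `1,2,3,3-10`, `1,2,4,4-14`,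
`1,2,5,6-10`. -/
theorem ramanujan {a b c d : ℕ} (ha : 1 ≤ a) (hab : a ≤ b) (hbc : b ≤ c) (hcd : c ≤ d) :
    (∀ n : ℕ, ∃ x y z w : ℤ, (a : ℤ) * x ^ 2 + b * y ^ 2 + c * z ^ 2 + d * w ^ 2 = n) ↔
      IsRam a b c d :=
  ⟨fun h => need ha hab hbc hcd fun n _ => h n, fun h => h.universal⟩

/-- **The fifteen theorem for diagonal quaternary forms**: the form `a x² + b y² + c z² + d w²`
with `1 ≤ a ≤ b ≤ c ≤ d` represents all natural numbers as soon as it represents
`1, 2, 3, 5, 6, 7, 10, 14, 15`. -/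
theorem fifteen {a b c d : ℕ} (ha : 1 ≤ a) (hab : a ≤ b) (hbc : b ≤ c) (hcd : c ≤ d)
    (h : ∀ n ∈ ({1, 2, 3, 5, 6, 7, 10, 14, 15} : Finset ℕ),
      ∃ x y z w : ℤ, (a : ℤ) * x ^ 2 + b * y ^ 2 + c * z ^ 2 + d * w ^ 2 = n) (n : ℕ) :
    ∃ x y z w : ℤ, (a : ℤ) * x ^ 2 + b * y ^ 2 + c * z ^ 2 + d * w ^ 2 = n :=
  (need ha hab hbc hcd h).universal n

theorem IsRam.sorted {a b c d : ℕ} (h : IsRam a b c d) : 1 ≤ a ∧ a ≤ b ∧ b ≤ c ∧ c ≤ d := by
  unfold IsRam at h
  omega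

/-- **There are exactly 54 universal diagonal quaternary forms.** -/
theorem ncard_universal : {v : ℕ × ℕ × ℕ × ℕ | 1 ≤ v.1 ∧ v.1 ≤ v.2.1 ∧ v.2.1 ≤ v.2.2.1 ∧
    v.2.2.1 ≤ v.2.2.2 ∧ ∀ n : ℕ, ∃ x y z w : ℤ, (v.1 : ℤ) * x ^ 2 + v.2.1 * y ^ 2 +
      v.2.2.1 * z ^ 2 + v.2.2.2 * w ^ 2 = n}.ncard = 54 := by
  rw [← ncard_isRam]
  congr 1
  ext ⟨a, b, c, d⟩
  constructor
  · rintro ⟨h1, h2, h3, h4, h5⟩
    exact (ramanujan h1 h2 h3 h4).1 h5
  · intro h
    obtain ⟨h1, h2, h3, h4⟩ := IsRam.sorted h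
    exact ⟨h1, h2, h3, h4, (ramanujan h1 h2 h3 h4).2 h⟩

theorem val_iff {a b c d n : ℕ} (ha : 1 ≤ a) (hb : 1 ≤ b) (hc : 1 ≤ c) (hd : 1 ≤ d)
    (hn : n ≤ 15) : Val a b c d n ↔ ∃ x < 4, ∃ y < 4, ∃ z < 4, ∃ w < 4,
      a * x ^ 2 + b * y ^ 2 + c * z ^ 2 + d * w ^ 2 = n := by
  constructor
  · intro h
    obtain ⟨x, y, z, w, h⟩ := nat_of_int h
    have hx : x ^ 2 ≤ a * x ^ 2 := Nat.le_mul_of_pos_left _ ha
    have hy : y ^ 2 ≤ b * y ^ 2 := Nat.le_mul_of_pos_left _ hb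
    have hz : z ^ 2 ≤ c * z ^ 2 := Nat.le_mul_of_pos_left _ hc
    have hw : w ^ 2 ≤ d * w ^ 2 := Nat.le_mul_of_pos_left _ hd
    exact ⟨x, lt4 hn (by omega), y, lt4 hn (by omega), z, lt4 hn (by omega), w,
      lt4 hn (by omega), h⟩
  · rintro ⟨x, -, y, -, z, -, w, -, h⟩
    exact ⟨x, y, z, w, by exact_mod_cast h⟩

/-- **None of the nine numbers is superfluous**: for every `t` in `1, 2, 3, 5, 6, 7, 10, 14, 15`
there is a diagonal quaternary form which represents the eight others and not `t`. -/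
theorem critical : ∀ t ∈ ({1, 2, 3, 5, 6, 7, 10, 14, 15} : Finset ℕ), ∃ a b c d : ℕ,
    1 ≤ a ∧ a ≤ b ∧ b ≤ c ∧ c ≤ d ∧ ∀ n ∈ ({1, 2, 3, 5, 6, 7, 10, 14, 15} : Finset ℕ),
      (∃ x y z w : ℤ, (a : ℤ) * x ^ 2 + b * y ^ 2 + c * z ^ 2 + d * w ^ 2 = n) ↔ n ≠ t := by
  have key : ∀ a b c d t : ℕ, 1 ≤ a → a ≤ b → b ≤ c → c ≤ d →
      (∀ n ∈ ({1, 2, 3, 5, 6, 7, 10, 14, 15} : Finset ℕ), (∃ x < 4, ∃ y < 4, ∃ z < 4, ∃ w < 4,
        a * x ^ 2 + b * y ^ 2 + c * z ^ 2 + d * w ^ 2 = n) ↔ n ≠ t) →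
      ∃ a b c d : ℕ, 1 ≤ a ∧ a ≤ b ∧ b ≤ c ∧ c ≤ d ∧
        ∀ n ∈ ({1, 2, 3, 5, 6, 7, 10, 14, 15} : Finset ℕ),
        (∃ x y z w : ℤ, (a : ℤ) * x ^ 2 + b * y ^ 2 + c * z ^ 2 + d * w ^ 2 = n) ↔ n ≠ t := by
    intro a b c d t h1 h2 h3 h4 h
    refine ⟨a, b, c, d, h1, h2, h3, h4, fun n hn => ?_⟩
    rw [← h n hn]
    refine val_iff h1 (h1.trans h2) ((h1.trans h2).trans h3) (((h1.trans h2).trans h3).trans h4) ?_
    simp only [Finset.mem_insert, Finset.mem_singleton] at hn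
    omega
  intro t ht
  simp only [Finset.mem_insert, Finset.mem_singleton] at ht
  rcases ht with rfl | rfl | rfl | rfl | rfl | rfl | rfl | rfl | rfl
  · exact key 2 2 3 4 1 (by norm_num) (by norm_num) (by norm_num) (by norm_num) (by decide +kernel)
  · exact key 1 3 3 5 2 (by norm_num) (by norm_num) (by norm_num) (by norm_num) (by decide +kernel)
  · exact key 1 1 4 5 3 (by norm_num) (by norm_num) (by norm_num) (by norm_num) (by decide +kernel)
  · exact key 1 2 6 6 5 (by norm_num) (by norm_num) (by norm_num) (by norm_num) (by decide +kernel)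
  · exact key 1 1 3 7 6 (by norm_num) (by norm_num) (by norm_num) (by norm_num) (by decide +kernel)
  · exact key 1 1 1 9 7 (by norm_num) (by norm_num) (by norm_num) (by norm_num) (by decide +kernel)
  · exact key 1 2 3 11 10 (by norm_num) (by norm_num) (by norm_num) (by norm_num) (by decide +kernel)
  · exact key 1 1 2 15 14 (by norm_num) (by norm_num) (by norm_num) (by norm_num) (by decide +kernel)
  · exact key 1 2 5 5 15 (by norm_num) (by norm_num) (by norm_num) (by norm_num) (by decide +kernel)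

end Fermat.Agent.Cor.Ram
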