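import Fermat.Agent.Corollaries.Ram.Diag

/-!
# For each of the nine critical numbers a form which misses exactly this number
-/

namespace Fermat.Agent.Cor.Ram

open Fermat.Agent.Cor.ThreeSq

/-! ### `x² + 2y² + 6z²` -/

/-- `x² + 2 y² + 6 z²` over `ℚ_2`. -/
theorem rat126_two {n : ℕ} (hn : n ≠ 0) (h : ∀ a b : ℕ, n ≠ 4 ^ a * (8 * b + 5)) :
    ∃ x y z : ℚ_[2], x ^ 2 + 2 * y ^ 2 + 6 * z ^ 2 = n := by
  obtain ⟨e, m, hm, rfl⟩ := Nat.exists_eq_pow_mul_and_not_dvd hn 4 (by norm_num)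
  suffices hs : ∃ x y z : ℚ_[2], x ^ 2 + 2 * y ^ 2 + 6 * z ^ 2 = m by
    obtain ⟨x, y, z, hxyz⟩ := hs
    refine ⟨2 ^ e * x, 2 ^ e * y, 2 ^ e * z, ?_⟩
    have h4 : ((4 : ℚ_[2]) ^ e) = 2 ^ e * 2 ^ e := by
      rw [← mul_pow]
      norm_num
    push_cast
    rw [h4, ← hxyz]
    ring
  by_cases hm2 : m % 2 = 1
  · have h0 : m % 8 = 1 ∨ m % 8 = 3 ∨ m % 8 = 5 ∨ m % 8 = 7 := by omega
    have h5 : m % 8 ≠ 5 := by
      intro h5
      apply h e (m / 8)
      congr 1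
      omega
    obtain ⟨s, hs⟩ := exists_sq_of_mod rfl h0
    rcases h0 with h1 | h1 | h1 | h1 <;> rw [h1] at hs <;> push_cast at hs
    · exact ⟨s, 0, 0, by rw [hs]; ring⟩
    · exact ⟨s, s, 0, by rw [hs]; ring⟩
    · exact absurd h1 h5
    · exact ⟨s, 0, s, by rw [hs]; ring⟩
  · obtain ⟨m', rfl⟩ : ∃ m', m = 2 * m' := ⟨m / 2, by omega⟩
    have h0 : m' % 8 = 1 ∨ m' % 8 = 3 ∨ m' % 8 = 5 ∨ m' % 8 = 7 := by omega
    obtain ⟨s, hs⟩ := exists_sq_of_mod rfl h0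
    push_cast
    rcases h0 with h1 | h1 | h1 | h1 <;> rw [h1] at hs <;> push_cast at hs
    · exact ⟨0, s, 0, by rw [hs]; ring⟩
    · exact ⟨0, 0, s, by rw [hs]; ring⟩
    · exact ⟨2 * s, 0, s, by rw [hs]; ring⟩
    · exact ⟨0, 2 * s, s, by rw [hs]; ring⟩

/-- The form `x² + 2 y² + 6 z²` represents over `ℚ` all natural numbers which are not
`4 ^ a (8 b + 5)`. -/
theorem rat126 (n : ℕ) (h : ∀ a b : ℕ, n ≠ 4 ^ a * (8 * b + 5)) :
    ∃ x y z : ℚ, x ^ 2 + 2 * y ^ 2 + 6 * z ^ 2 = n := by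
  by_cases hn : n = 0
  · exact ⟨0, 0, 0, by rw [hn]; norm_num⟩
  have key := rat_of_local (a := 1) (b := 2) (c := 6) one_pos two_pos (by norm_num) hn (by
    intro p hp
    by_cases hp2 : p = 2
    · subst hp2
      obtain ⟨x, y, z, hxyz⟩ := rat126_two hn h
      exact ⟨x, y, z, 1, Or.inr (Or.inr (Or.inr one_ne_zero)), by
        push_cast
        rw [one_pow, mul_one, ← hxyz]
        ring⟩
    by_cases hp3 : p = 3
    · subst hp3
      obtain ⟨t, ht⟩ := HN.NoHasse.isSquare_padic (p := 3) (k := -2) (by norm_num) (by norm_num)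
        ⟨1, neg_two_mod_three⟩
      exact ⟨t, 1, 0, 0, Or.inr (Or.inl one_ne_zero), by
        push_cast at ht ⊢
        linear_combination -ht⟩
    · have hd : ∀ k : ℕ, k.Prime → p ≠ k → ¬ (p : ℤ) ∣ (k : ℤ) := fun k hk hpk hdv =>
        hpk ((Nat.prime_dvd_prime_iff_eq hp.out hk).mp (by exact_mod_cast hdv))
      obtain ⟨x, y, hxy⟩ := exists_isotropic_of_units (p := p) hp2 (a := 1) (b := 2) (c := 6)
        (fun h1 => hp.out.one_lt.ne' (by
          have := Int.eq_one_of_dvd_one (by positivity) h1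
          exact_mod_cast this)) (by exact_mod_cast hd 2 Nat.prime_two hp2)
        (fun h6 => by
          have h6' : p ∣ 2 * 3 := by exact_mod_cast h6
          rcases (Nat.Prime.dvd_mul hp.out).mp h6' with h7 | h7
          · exact hp2 ((Nat.prime_dvd_prime_iff_eq hp.out Nat.prime_two).mp h7)
          · exact hp3 ((Nat.prime_dvd_prime_iff_eq hp.out Nat.prime_three).mp h7))
      exact ⟨x, y, 1, 0, Or.inr (Or.inr (Or.inl one_ne_zero)), by
        push_cast at hxy ⊢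
        linear_combination hxy⟩)
  obtain ⟨x, y, z, hxyz⟩ := key
  exact ⟨x, y, z, by
    push_cast at hxyz
    linear_combination hxyz⟩

theorem hex_final {p q t : ℤ} (hp : |p| ≤ t) (hq : |q| ≤ t) (hr : |p - q| ≤ t) :
    p ^ 2 - p * q + q ^ 2 ≤ t ^ 2 := by
  rw [abs_le] at hp hq hr
  rcases le_total 0 p with h | h <;> rcases le_total 0 q with h' | h' <;>
    rcases le_total p q with h'' | h'' <;> nlinarith

/-- The covering radius of the hexagonal lattice. -/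
theorem hex {t : ℤ} (ht : 0 < t) (y z : ℤ) : ∃ k l : ℤ,
    3 * ((y - t * k) ^ 2 + (y - t * k) * (z - t * l) + (z - t * l) ^ 2) ≤ t ^ 2 := by
  obtain ⟨l, h3⟩ := near ht 1 one_pos z 0
  obtain ⟨k, h2⟩ := near ht 2 two_pos y (z - t * l)
  have key : ∀ u v : ℤ, |2 * u + v| ≤ t → |u + 2 * v| ≤ t → |u - v| ≤ t →
      3 * (u ^ 2 + u * v + v ^ 2) ≤ t ^ 2 := by
    intro u v h1 h2 h3
    have := hex_final h1 h2 (by rwa [show 2 * u + v - (u + 2 * v) = u - v by ring])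
    linarith
  set u := y - t * k with hu
  set v := z - t * l with hv
  rw [abs_le] at h2 h3
  rcases lt_or_ge t (u + 2 * v) with h | h
  · refine ⟨k, l + 1, ?_⟩
    rw [show z - t * (l + 1) = v - t by rw [hv]; ring]
    apply key <;> rw [abs_le] <;> constructor <;> linarith
  · rcases lt_or_ge (u + 2 * v) (-t) with h' | h'
    · refine ⟨k, l - 1, ?_⟩
      rw [show z - t * (l - 1) = v + t by rw [hv]; ring]
      apply key <;> rw [abs_le] <;> constructor <;> linarith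
    · rcases lt_or_ge t (u - v) with h'' | h''
      · refine ⟨k + 1, l - 1, ?_⟩
        rw [show z - t * (l - 1) = v + t by rw [hv]; ring,
          show y - t * (k + 1) = u - t by rw [hu]; ring]
        apply key <;> rw [abs_le] <;> constructor <;> linarith
      · rcases lt_or_ge (u - v) (-t) with h3' | h3'
        · refine ⟨k - 1, l + 1, ?_⟩
          rw [show z - t * (l + 1) = v - t by rw [hv]; ring,
            show y - t * (k - 1) = u + t by rw [hu]; ring]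
          apply key <;> rw [abs_le] <;> constructor <;> linarith
        · refine ⟨k, l, ?_⟩
          apply key <;> rw [abs_le] <;> constructor <;> linarith

/-- `x² + 2 (y² + yz + z²)` is Euclidean. -/
theorem dc126 (n : ℤ) (t : ℤ) (ht : 0 < t) (x y z : ℤ)
    (h : tf 1 2 2 2 0 0 x y z = t ^ 2 * n) : ∃ x y z : ℤ, tf 1 2 2 2 0 0 x y z = n := by
  have e : ∀ x y z : ℤ, 4 * tf 1 2 2 2 0 0 x y z =
      4 * x ^ 2 + 2 * (2 * y + z) ^ 2 + 6 * z ^ 2 := by
    intro x y z; simp only [tf]; ring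
  refine davenport_cassels ?_ ?_ ?_ n t.toNat t ht (by omega) x y z h
  · intro x y z
    exact pos_of_four (e x y z) (by positivity)
  · intro x y z h0
    have h1 := e x y z
    rw [h0] at h1
    have hx : x ^ 2 = 0 := by nlinarith [sq_nonneg x, sq_nonneg (2 * y + z), sq_nonneg z]
    have hz : z ^ 2 = 0 := by nlinarith [sq_nonneg x, sq_nonneg (2 * y + z), sq_nonneg z]
    have hy : (2 * y + z) ^ 2 = 0 := by
      nlinarith [sq_nonneg x, sq_nonneg (2 * y + z), sq_nonneg z]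
    have hx' : x = 0 := by simpa using hx
    have hz' : z = 0 := by simpa using hz
    have hy' : 2 * y + z = 0 := by simpa using hy
    exact ⟨hx', by omega, hz'⟩
  · intro t ht x y z
    obtain ⟨k1, h1⟩ := near ht 1 one_pos x 0
    obtain ⟨k2, k3, h2⟩ := hex ht y z
    refine ⟨k1, k2, k3, ?_⟩
    have g1 := sq_le h1
    have ht2 : 0 < t ^ 2 := by positivity
    have e2 : tf 1 2 2 2 0 0 (x - t * k1) (y - t * k2) (z - t * k3) = (x - t * k1) ^ 2 +
        2 * ((y - t * k2) ^ 2 + (y - t * k2) * (z - t * k3) + (z - t * k3) ^ 2) := by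
      simp only [tf]; ring
    rw [e2]
    generalize (y - t * k2) ^ 2 + (y - t * k2) * (z - t * k3) + (z - t * k3) ^ 2 = N at *
    have g2 : 4 * (x - t * k1) ^ 2 ≤ t ^ 2 := by
      refine le_trans (le_of_eq ?_) (g1.trans (le_of_eq ?_)) <;> ring
    linarith

theorem int126 (n : ℤ) (h : ∃ x y z : ℚ, x ^ 2 + 2 * y ^ 2 + 6 * z ^ 2 = n) :
    ∃ x y z : ℤ, x ^ 2 + 2 * y ^ 2 + 6 * z ^ 2 = n := by
  obtain ⟨t, ht, x, y, z, h⟩ := clear_denoms (a := 1) (b := 2) (c := 6) (n := n)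
    (by simpa using h)
  obtain ⟨x, y, z, h⟩ := dc126 n t ht x (y - z) (2 * z) (by
    rw [← h]; simp only [tf]; ring)
  obtain ⟨u, v, huv⟩ := eisenstein y z
  refine ⟨x, u, v, ?_⟩
  rw [← h]
  simp only [tf]
  linear_combination 2 * huv

theorem not126 (a b : ℕ) :
    ¬ ∃ x y z : ℤ, x ^ 2 + 2 * y ^ 2 + 6 * z ^ 2 = 4 ^ a * (8 * b + 5) := by
  induction a with
  | zero =>
    rintro ⟨x, y, z, h⟩
    have h1 : ∀ x y z : ZMod 8, x ^ 2 + 2 * y ^ 2 + 6 * z ^ 2 ≠ 5 := by decide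
    refine h1 x y z ?_
    have h2 := congrArg (Int.cast : ℤ → ZMod 8) h
    push_cast at h2
    rw [h2, show (8 : ZMod 8) = 0 from rfl]
    ring
  | succ a ih =>
    rintro ⟨x, y, z, h⟩
    have h1 : ∀ x y z : ZMod 16, (x ^ 2 + 2 * y ^ 2 + 6 * z ^ 2 = 0 ∨
        x ^ 2 + 2 * y ^ 2 + 6 * z ^ 2 = 4) → 8 * x = 0 ∧ 8 * y = 0 ∧ 8 * z = 0 := by
      decide +kernel
    have h2 : ((x : ZMod 16)) ^ 2 + 2 * y ^ 2 + 6 * z ^ 2 = 0 ∨
        ((x : ZMod 16)) ^ 2 + 2 * y ^ 2 + 6 * z ^ 2 = 4 := by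
      rcases a with _ | a
      · right
        have h3 : x ^ 2 + 2 * y ^ 2 + 6 * z ^ 2 = 16 * (2 * b + 1) + 4 := by
          rw [h]; ring
        have h3 := congrArg (Int.cast : ℤ → ZMod 16) h3
        push_cast at h3
        rw [h3, show (16 : ZMod 16) = 0 from rfl]
        ring
      · left
        have h3 : x ^ 2 + 2 * y ^ 2 + 6 * z ^ 2 = 16 * (4 ^ a * (8 * b + 5)) := by
          rw [h]; ring
        have h3 := congrArg (Int.cast : ℤ → ZMod 16) h3
        push_cast at h3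
        rw [h3, show (16 : ZMod 16) = 0 from rfl]
        ring
    obtain ⟨hx, hy, hz⟩ := h1 _ _ _ h2
    have hd : ∀ w : ℤ, (8 : ZMod 16) * w = 0 → ∃ v, w = 2 * v := by
      intro w hw
      have : ((8 * w : ℤ) : ZMod 16) = 0 := by push_cast; exact hw
      rw [ZMod.intCast_zmod_eq_zero_iff_dvd] at this
      exact ⟨w / 2, by push_cast at this; omega⟩
    obtain ⟨x, rfl⟩ := hd x hx
    obtain ⟨y, rfl⟩ := hd y hy
    obtain ⟨z, rfl⟩ := hd z hz
    refine ih ⟨x, y, z, ?_⟩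
    rw [pow_succ (4 : ℤ)] at h
    linarith

/-- **`x² + 2y² + 6z²`** represents `n` iff `n` is not of the form `4 ^ a (8 b + 5)`. -/
theorem form126_iff {n : ℕ} : (∃ x y z : ℤ, x ^ 2 + 2 * y ^ 2 + 6 * z ^ 2 = (n : ℤ)) ↔
    ∀ a b : ℕ, n ≠ 4 ^ a * (8 * b + 5) := by
  constructor
  · rintro h a b rfl
    push_cast at h
    exact not126 a b h
  · intro h
    exact int126 n (by simpa using rat126 n h)

theorem good126 {k : ℕ} (h4 : k % 4 ≠ 0) (h8 : k % 8 ≠ 5) :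
    ∃ x y z : ℤ, x ^ 2 + 2 * y ^ 2 + 6 * z ^ 2 = (k : ℤ) := by
  refine form126_iff.2 fun a b hab => ?_
  rcases a with _ | a
  · omega
  · have : k = 4 * (4 ^ a * (8 * b + 5)) := by rw [hab, pow_succ]; ring
    omega

theorem good114 {k : ℕ} (h : k % 4 = 1 ∨ k % 4 = 2) :
    ∃ x y z : ℤ, x ^ 2 + y ^ 2 + 4 * z ^ 2 = (k : ℤ) := by
  obtain ⟨x, y, z, h1, -⟩ := ThreeSq.exists_sq_of_mod (n := k) (by omega) (by omega)
  have sq : ∀ w : ℤ, w % 2 = 1 → w ^ 2 % 4 = 1 := by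
    intro w hw
    obtain ⟨v, rfl⟩ : ∃ v, w = 2 * v + 1 := ⟨w / 2, by omega⟩
    have : (2 * v + 1) ^ 2 = 4 * (v ^ 2 + v) + 1 := by ring
    omega
  have key : ∀ w : ℤ, w % 2 = 0 → ∃ v, w = 2 * v := fun w hw => ⟨w / 2, by omega⟩
  rcases Int.emod_two_eq_zero_or_one x with hx | hx
  · obtain ⟨v, rfl⟩ := key x hx
    exact ⟨y, z, v, by rw [← h1]; ring⟩
  · rcases Int.emod_two_eq_zero_or_one y with hy | hy
    · obtain ⟨v, rfl⟩ := key y hy
      exact ⟨x, z, v, by rw [← h1]; ring⟩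
    · rcases Int.emod_two_eq_zero_or_one z with hz | hz
      · obtain ⟨v, rfl⟩ := key z hz
        exact ⟨x, y, v, by rw [← h1]; ring⟩
      · have := sq x hx
        have := sq y hy
        have := sq z hz
        omega

theorem good133_of {k : ℕ} (h : ∃ x y z : ℤ, x ^ 2 + y ^ 2 + 3 * z ^ 2 = 3 * (k : ℤ)) :
    ∃ x y z : ℤ, x ^ 2 + 3 * y ^ 2 + 3 * z ^ 2 = (k : ℤ) := by
  obtain ⟨x, y, z, h⟩ := h
  have h3 : ∀ x y : ZMod 3, x ^ 2 + y ^ 2 = 0 → x = 0 ∧ y = 0 := by decide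
  have h1 : ((x : ZMod 3)) ^ 2 + y ^ 2 = 0 := by
    have h4 : x ^ 2 + y ^ 2 = 3 * (k - z ^ 2) := by linarith
    have h4 := congrArg (Int.cast : ℤ → ZMod 3) h4
    push_cast at h4
    rw [h4, show (3 : ZMod 3) = 0 from rfl]
    ring
  obtain ⟨hx, hy⟩ := h3 _ _ h1
  rw [ZMod.intCast_zmod_eq_zero_iff_dvd] at hx hy
  obtain ⟨x, rfl⟩ := hx
  obtain ⟨y, rfl⟩ := hy
  refine ⟨z, x, y, ?_⟩
  push_cast at h
  linarith

theorem good133 {k : ℕ} (h : k % 3 = 1 ∨ k % 9 = 3 ∨ k % 9 = 6) :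
    ∃ x y z : ℤ, x ^ 2 + 3 * y ^ 2 + 3 * z ^ 2 = (k : ℤ) := by
  apply good133_of
  by_cases h1 : k % 3 = 1
  · obtain ⟨x, y, z, h⟩ := good113 (k := 3 * k) (by omega) (by omega)
    exact ⟨x, y, z, by rw [h]; push_cast; ring⟩
  · obtain ⟨m, rfl⟩ : ∃ m, k = 3 * m := ⟨k / 3, by omega⟩
    obtain ⟨x, y, z, h⟩ := good113 (k := m) (by omega) (by omega)
    exact ⟨3 * x, 3 * y, 3 * z, by push_cast; rw [← h]; ring⟩

/-! ### The nine forms -/

/-- Multiples of a square, with an exception. -/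
theorem only_of {a b c d m t : ℕ} (hm : 2 ≤ m) (hmt : Val a b c d (m ^ 2 * t))
    (h : ∀ n : ℕ, n % m ^ 2 ≠ 0 → n ≠ t → Val a b c d n) {n : ℕ} (hn : n ≠ t) :
    Val a b c d n := by
  induction n using Nat.strong_induction_on with
  | _ n ih =>
  by_cases h0 : n % m ^ 2 = 0
  · rcases Nat.eq_zero_or_pos n with rfl | hn0
    · exact ⟨0, 0, 0, 0, by simp⟩
    · obtain ⟨k, rfl⟩ := Nat.dvd_of_mod_eq_zero h0
      by_cases hk' : k = t
      · rw [hk']; exact hmt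
      have hk : k < m ^ 2 * k := by
        have h1 : 0 < k := Nat.pos_of_ne_zero (by rintro rfl; simp at hn0)
        have h2 : 2 ^ 2 ≤ m ^ 2 := Nat.pow_le_pow_left hm 2
        nlinarith
      obtain ⟨x, y, z, w, hx⟩ := ih k hk hk'
      refine ⟨m * x, m * y, m * z, m * w, ?_⟩
      push_cast
      rw [← hx]
      ring
  · exact h n h0 hn

theorem val2234 {n : ℕ} (hn : n ≠ 1) : Val 2 2 3 4 n := by
  have step : ∀ (k : ℕ) (w : ℤ), 2 * (k : ℤ) + 3 * w ^ 2 = n → k % 8 ≠ 0 → k % 16 ≠ 14 →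
      Val 2 2 3 4 n := by
    intro k w hk h8 h16
    obtain ⟨x, y, z, h⟩ := good112 h8 h16
    exact ⟨x, y, w, z, by rw [← hk, ← h]; push_cast; ring⟩
  rcases Nat.even_or_odd' n with ⟨m, rfl | rfl⟩
  · by_cases h8 : m % 8 = 0
    · rcases Nat.eq_zero_or_pos m with rfl | hm
      · exact ⟨0, 0, 0, 0, by simp⟩
      · obtain ⟨k, rfl⟩ : ∃ k, m = k + 6 := ⟨m - 6, by omega⟩
        exact step k 2 (by push_cast; ring) (by omega) (by omega)
    by_cases h16 : m % 16 = 14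
    · obtain ⟨b, rfl⟩ : ∃ b, m = 16 * b + 14 := ⟨m / 16, by omega⟩
      rcases b with _ | b
      · exact ⟨2, 2, 2, 0, by norm_num⟩
      · exact step (16 * b + 6) 4 (by push_cast; ring) (by omega) (by omega)
    · exact step m 0 (by push_cast; ring) h8 h16
  · obtain ⟨k, rfl⟩ : ∃ k, m = k + 1 := ⟨m - 1, by omega⟩
    by_cases h8 : k % 8 = 0
    · obtain ⟨b, rfl⟩ : ∃ b, k = 8 * b := ⟨k / 8, by omega⟩
      rcases b with _ | _ | b
      · exact ⟨0, 0, 1, 0, by norm_num⟩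
      · exact ⟨2, 2, 1, 0, by norm_num⟩
      · exact step (8 * b + 4) 3 (by push_cast; ring) (by omega) (by omega)
    by_cases h16 : k % 16 = 14
    · obtain ⟨b, rfl⟩ : ∃ b, k = 16 * b + 14 := ⟨k / 16, by omega⟩
      exact step (16 * b + 2) 3 (by push_cast; ring) (by omega) (by omega)
    · exact step k 1 (by push_cast; ring) h8 h16

theorem val1335 {n : ℕ} (hn : n ≠ 2) : Val 1 3 3 5 n := by
  refine only_of (show 2 ≤ 3 by norm_num) ⟨1, 2, 0, 1, by norm_num⟩ (fun n h9 hn => ?_) hn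
  have step : ∀ (k : ℕ) (w : ℤ), (k : ℤ) + (5 : ℕ) * w ^ 2 = n →
      (k % 3 = 1 ∨ k % 9 = 3 ∨ k % 9 = 6) → Val 1 3 3 5 n := by
    intro k w hk h
    exact Val.step w (by simpa using good133 h) hk
  by_cases h3 : n % 3 = 2
  swap
  · exact step n 0 (by ring) (by omega)
  obtain ⟨b, rfl⟩ : ∃ b, n = 3 * b + 2 := ⟨n / 3, by omega⟩
  by_cases hb : b % 3 = 1
  · by_cases hb4 : b = 1 ∨ b = 4
    · rcases hb4 with rfl | rfl
      · exact ⟨0, 0, 0, 1, by norm_num⟩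
      · exact ⟨3, 0, 0, 1, by norm_num⟩
    · obtain ⟨c, rfl⟩ : ∃ c, b = c + 6 := ⟨b - 6, by omega⟩
      exact step (3 * c) 2 (by push_cast; ring) (by omega)
  · obtain ⟨c, rfl⟩ : ∃ c, b = c + 1 := ⟨b - 1, by omega⟩
    exact step (3 * c) 1 (by push_cast; ring) (by omega)

theorem val1145 {n : ℕ} (hn : n ≠ 3) : Val 1 1 4 5 n := by
  refine only_of (le_refl 2) ⟨2, 2, 1, 0, by norm_num⟩ (fun n h4 hn => ?_) hn
  have step : ∀ (k : ℕ) (w : ℤ), (k : ℤ) + (5 : ℕ) * w ^ 2 = n →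
      (k % 4 = 1 ∨ k % 4 = 2) → Val 1 1 4 5 n := by
    intro k w hk h
    exact Val.step w (by simpa using good114 h) hk
  by_cases h3 : n % 4 = 3
  swap
  · exact step n 0 (by ring) (by omega)
  obtain ⟨b, rfl⟩ : ∃ b, n = b + 5 := ⟨n - 5, by omega⟩
  exact step b 1 (by push_cast; ring) (by omega)

theorem val1266 {n : ℕ} (hn : n ≠ 5) : Val 1 2 6 6 n := by
  refine only_of (le_refl 2) ⟨0, 2, 1, 1, by norm_num⟩ (fun n h4 hn => ?_) hn
  have step : ∀ (k : ℕ) (w : ℤ), (k : ℤ) + (6 : ℕ) * w ^ 2 = n → k % 4 ≠ 0 → k % 8 ≠ 5 →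
      Val 1 2 6 6 n := by
    intro k w hk h h'
    exact Val.step w (by simpa using good126 h h') hk
  by_cases h5 : n % 8 = 5
  · obtain ⟨b, rfl⟩ : ∃ b, n = 8 * b + 13 := ⟨(n - 13) / 8, by omega⟩
    exact step (8 * b + 7) 1 (by push_cast; ring) (by omega) (by omega)
  · exact step n 0 (by ring) (by omega) h5

theorem val1137 {n : ℕ} (hn : n ≠ 6) : Val 1 1 3 7 n := by
  have step : ∀ (n k : ℕ) (w : ℤ), (k : ℤ) + (7 : ℕ) * w ^ 2 = n → k % 9 ≠ 0 → k % 9 ≠ 6 →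
      Val 1 1 3 7 n := by
    intro n k w hk h h'
    exact Val.step w (by simpa using good113 h h') hk
  refine only_of (show 2 ≤ 3 by norm_num)
    (step _ 47 1 (by norm_num) (by norm_num) (by norm_num)) (fun n h9 hn => ?_) hn
  by_cases h6 : n % 9 = 6
  · obtain ⟨b, rfl⟩ : ∃ b, n = 9 * b + 15 := ⟨(n - 15) / 9, by omega⟩
    exact step _ (9 * b + 8) 1 (by push_cast; ring) (by omega) (by omega)
  · exact step _ n 0 (by ring) (by omega) h6

theorem val1119 {n : ℕ} (hn : n ≠ 7) : Val 1 1 1 9 n := by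
  refine only_of (le_refl 2) ⟨3, 3, 1, 1, by norm_num⟩ (fun n h4 hn => ?_) hn
  have step : ∀ (k : ℕ) (w : ℤ), (k : ℤ) + (9 : ℕ) * w ^ 2 = n → k % 4 ≠ 0 → k % 8 ≠ 7 →
      Val 1 1 1 9 n := by
    intro k w hk h h'
    obtain ⟨x, y, z, hx, -⟩ := ThreeSq.exists_sq_of_mod h h'
    exact Val.step w ⟨x, y, z, by rw [← hx]; push_cast; ring⟩ hk
  by_cases h7 : n % 8 = 7
  · obtain ⟨b, rfl⟩ : ∃ b, n = 8 * b + 15 := ⟨(n - 15) / 8, by omega⟩
    exact step (8 * b + 6) 1 (by push_cast; ring) (by omega) (by omega)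
  · exact step n 0 (by ring) (by omega) h7

theorem val12311 {n : ℕ} (hn : n ≠ 10) : Val 1 2 3 11 n := by
  have step : ∀ (n k : ℕ) (w : ℤ), (k : ℤ) + (11 : ℕ) * w ^ 2 = n → k % 8 ≠ 0 → k % 16 ≠ 10 →
      Val 1 2 3 11 n := by
    intro n k w hk h h'
    exact Val.step w (by simpa using good123 h h') hk
  refine only_of (le_refl 2)
    (step _ 29 1 (by norm_num) (by norm_num) (by norm_num)) (fun n h4 hn => ?_) hn
  by_cases h10 : n % 16 = 10
  · obtain ⟨b, rfl⟩ : ∃ b, n = 16 * b + 26 := ⟨(n - 26) / 16, by omega⟩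
    exact step _ (16 * b + 15) 1 (by push_cast; ring) (by omega) (by omega)
  · exact step _ n 0 (by ring) (by omega) h10

theorem val11215 {n : ℕ} (hn : n ≠ 14) : Val 1 1 2 15 n := by
  have step : ∀ (n k : ℕ) (w : ℤ), (k : ℤ) + (15 : ℕ) * w ^ 2 = n → k % 8 ≠ 0 → k % 16 ≠ 14 →
      Val 1 1 2 15 n := by
    intro n k w hk h h'
    exact Val.step w (by simpa using good112 h h') hk
  refine only_of (le_refl 2)
    (step _ 41 1 (by norm_num) (by norm_num) (by norm_num)) (fun n h4 hn => ?_) hn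
  by_cases h14 : n % 16 = 14
  · obtain ⟨b, rfl⟩ : ∃ b, n = 16 * b + 30 := ⟨(n - 30) / 16, by omega⟩
    exact step _ (16 * b + 15) 1 (by push_cast; ring) (by omega) (by omega)
  · exact step _ n 0 (by ring) (by omega) h14

/-- **For each of the nine numbers `t = 1, 2, 3, 5, 6, 7, 10, 14, 15` there is a diagonal
quaternary form which represents exactly the natural numbers `n ≠ t`.** -/
theorem only_missing : ∀ t ∈ ({1, 2, 3, 5, 6, 7, 10, 14, 15} : Finset ℕ), ∃ a b c d : ℕ,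
    1 ≤ a ∧ a ≤ b ∧ b ≤ c ∧ c ≤ d ∧ ∀ n : ℕ,
      (∃ x y z w : ℤ, (a : ℤ) * x ^ 2 + b * y ^ 2 + c * z ^ 2 + d * w ^ 2 = n) ↔ n ≠ t := by
  have key : ∀ a b c d t : ℕ, 1 ≤ a → a ≤ b → b ≤ c → c ≤ d → t ≤ 15 →
      (¬ ∃ x < 4, ∃ y < 4, ∃ z < 4, ∃ w < 4,
        a * x ^ 2 + b * y ^ 2 + c * z ^ 2 + d * w ^ 2 = t) →
      (∀ {n : ℕ}, n ≠ t → Val a b c d n) → ∃ a b c d : ℕ,
        1 ≤ a ∧ a ≤ b ∧ b ≤ c ∧ c ≤ d ∧ ∀ n : ℕ,
        (∃ x y z w : ℤ, (a : ℤ) * x ^ 2 + b * y ^ 2 + c * z ^ 2 + d * w ^ 2 = n) ↔ n ≠ t := by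
    intro a b c d t h1 h2 h3 h4 ht h5 h6
    refine ⟨a, b, c, d, h1, h2, h3, h4, fun n => ⟨?_, fun h => h6 h⟩⟩
    rintro h rfl
    exact h5 ((val_iff h1 (h1.trans h2) ((h1.trans h2).trans h3)
      (((h1.trans h2).trans h3).trans h4) ht).1 h)
  intro t ht
  simp only [Finset.mem_insert, Finset.mem_singleton] at ht
  rcases ht with rfl | rfl | rfl | rfl | rfl | rfl | rfl | rfl | rfl
  · exact key 2 2 3 4 1 (by norm_num) (by norm_num) (by norm_num) (by norm_num) (by norm_num)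
      (by decide +kernel) val2234
  · exact key 1 3 3 5 2 (by norm_num) (by norm_num) (by norm_num) (by norm_num) (by norm_num)
      (by decide +kernel) val1335
  · exact key 1 1 4 5 3 (by norm_num) (by norm_num) (by norm_num) (by norm_num) (by norm_num)
      (by decide +kernel) val1145
  · exact key 1 2 6 6 5 (by norm_num) (by norm_num) (by norm_num) (by norm_num) (by norm_num)
      (by decide +kernel) val1266
  · exact key 1 1 3 7 6 (by norm_num) (by norm_num) (by norm_num) (by norm_num) (by norm_num)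
      (by decide +kernel) val1137
  · exact key 1 1 1 9 7 (by norm_num) (by norm_num) (by norm_num) (by norm_num) (by norm_num)
      (by decide +kernel) val1119
  · exact key 1 2 3 11 10 (by norm_num) (by norm_num) (by norm_num) (by norm_num) (by norm_num)
      (by decide +kernel) val12311
  · exact key 1 1 2 15 14 (by norm_num) (by norm_num) (by norm_num) (by norm_num) (by norm_num)
      (by decide +kernel) val11215
  · exact key 1 2 5 5 15 (by norm_num) (by norm_num) (by norm_num) (by norm_num) (by norm_num)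
      (by decide +kernel) val1255

end Fermat.Agent.Cor.Ram
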